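import Mathlib
import Fermat.Agent.LT.General.Level
import Fermat.Agent.LT.General.Field
import Fermat.Agent.LT.General.FieldK
import Fermat.Agent.LT.Descent.Facts.Places

set_option autoImplicit false

/-!
# The places over `m` and the levels, general input
-/

noncomputable section

open NumberField IsDedekindDomain
open FermatAgent.LT (galInt galPlace galPlace_asIdeal)
open FermatAgent.Duality.Global (toZB Over exists_place exists_over)

namespace FermatAgent.LTG

local notation "Qb" => AlgebraicClosure ℚ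

namespace Setup

variable (S : Setup)

theorem mem_badPlaces_iff (L : IntermediateField ℚ Qb) [NumberField L]
    (v : HeightOneSpectrum (𝓞 L)) : v ∈ S.badPlaces L ↔ (S.m : 𝓞 L) ∈ v.asIdeal := by
  rw [badPlaces, Set.Finite.mem_toFinset, Set.mem_ofPred_eq, Ideal.dvd_span_singleton]

theorem m_mem_of_three_mem {L : IntermediateField ℚ Qb} [NumberField L]
    {v : HeightOneSpectrum (𝓞 L)} (h3 : (3 : 𝓞 L) ∈ v.asIdeal) : (S.m : 𝓞 L) ∈ v.asIdeal := by
  obtain ⟨c, hc⟩ := S.six_dvd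
  rw [hc, Nat.cast_mul, show ((6 : ℕ) : 𝓞 L) = 3 * 2 by norm_num]
  exact Ideal.mul_mem_right _ _ (Ideal.mul_mem_right _ _ h3)

theorem inclInt_apply (b : 𝓞 S.K) :
    ((S.inclInt b : 𝓞 S.F) : S.F) = S.inclKF (b : S.K) := rfl

theorem inclInt_injective : Function.Injective S.inclInt := fun _ _ h =>
  RingOfIntegers.coe_injective (S.inclKF.injective (congrArg (fun z : 𝓞 S.F => (z : S.F)) h))

theorem natCast_mem_underK (w : HeightOneSpectrum (𝓞 S.F)) (n : ℕ) :
    (n : 𝓞 S.K) ∈ (S.underK w).asIdeal ↔ (n : 𝓞 S.F) ∈ w.asIdeal := by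
  show _ ∈ w.asIdeal.comap S.inclInt ↔ _
  rw [Ideal.mem_comap, map_natCast]

theorem toZB_inclInt (b : 𝓞 S.K) : toZB S.F (S.inclInt b) = toZB S.K b := Subtype.ext rfl

theorem over_underK {A : ValuationSubring Qb} {w : HeightOneSpectrum (𝓞 S.F)}
    (hA : Over S.F A w) : Over S.K A (S.underK w) := by
  refine ⟨hA.1, Ideal.ext fun b => ?_⟩
  show b ∈ _ ↔ S.inclInt b ∈ w.asIdeal
  rw [← hA.2, Ideal.mem_comap, Ideal.mem_comap, S.toZB_inclInt]

theorem exists_place_over (v : HeightOneSpectrum (𝓞 S.K)) :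
    ∃ w : HeightOneSpectrum (𝓞 S.F), S.underK w = v := by
  obtain ⟨A, hA⟩ := exists_place v
  obtain ⟨w, hw⟩ := exists_over (K := S.F) hA.1
  exact ⟨w, (S.over_underK hw).eq hA⟩

variable {S} {σ : S.F ≃+* S.F}

theorem galInt_inclInt (S : Setup) {σ : S.F ≃+* S.F} (hσ : S.IsGalGen σ) (b : 𝓞 S.K) :
    galInt σ (S.inclInt b) = S.inclInt b :=
  RingOfIntegers.coe_injective (hσ.2 _)

theorem underK_galPlace (S : Setup) {σ : S.F ≃+* S.F} (hσ : S.IsGalGen σ)
    (w : HeightOneSpectrum (𝓞 S.F)) : S.underK (galPlace σ w) = S.underK w := by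
  refine HeightOneSpectrum.ext (Ideal.ext fun b => ?_)
  show S.inclInt b ∈ (galPlace σ w).asIdeal ↔ S.inclInt b ∈ w.asIdeal
  rw [galPlace_asIdeal, Ideal.mem_comap, S.galInt_inclInt hσ]

theorem IsGalGen.cube (hσ : S.IsGalGen σ) (x : S.F) : σ (σ (σ x)) = x :=
  IsGalGen.apply_cube S hσ x

/-- The fixed field of a generator is `K`. -/
theorem IsGalGen.exists_of_fixed (hσ : S.IsGalGen σ) {x : S.F} (hx : σ x = x) :
    ∃ y, S.inclKF y = x := by
  suffices hK : (x : Qb) ∈ S.K from ⟨⟨x, hK⟩, Subtype.ext rfl⟩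
  rintro ⟨g, hg⟩
  show g (x : Qb) = x
  have hgK : g ∈ S.K.fixingSubgroup := by
    rw [IntermediateField.mem_fixingSubgroup_iff]
    intro y hy
    exact hy ⟨g, hg⟩
  rw [← S.coe_gRes g x]
  rcases IsGalGen.cases S hσ ((S.gRes_fixes_iff g).mpr hgK) with h | h | h <;> rw [h]
  · rfl
  · rw [hx]
  · rw [RingEquiv.trans_apply, hx, hx]

namespace Level

variable (D : S.Level)

theorem lvl_ne_zero : D.lvl ≠ 0 := pow_ne_zero _ S.m_ne_zero

theorem levelIdeal_ne_bot (L : IntermediateField ℚ Qb) [NumberField L] :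
    D.levelIdeal L ≠ ⊥ := by
  rw [Ne, Ideal.span_singleton_eq_bot]
  exact Nat.cast_ne_zero.mpr D.lvl_ne_zero

theorem natCast_lvl_mem_iff (L : IntermediateField ℚ Qb) [NumberField L]
    (v : HeightOneSpectrum (𝓞 L)) : (D.lvl : 𝓞 L) ∈ v.asIdeal ↔ (S.m : 𝓞 L) ∈ v.asIdeal := by
  rw [lvl, Nat.cast_pow]
  exact ⟨fun h => v.isPrime.mem_of_pow_mem _ h,
    fun h => Ideal.pow_mem_of_mem _ h _ (by omega)⟩

theorem levelIdeal_le_iff (L : IntermediateField ℚ Qb) [NumberField L]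
    (v : HeightOneSpectrum (𝓞 L)) : D.levelIdeal L ≤ v.asIdeal ↔ (S.m : 𝓞 L) ∈ v.asIdeal := by
  rw [levelIdeal, Ideal.span_singleton_le_iff_mem, D.natCast_lvl_mem_iff]

theorem not_levelIdeal_le {L : IntermediateField ℚ Qb} [NumberField L]
    {v : HeightOneSpectrum (𝓞 L)} (hv : (S.m : 𝓞 L) ∉ v.asIdeal) :
    ¬ D.levelIdeal L ≤ v.asIdeal :=
  fun h => hv ((D.levelIdeal_le_iff L v).mp h)

theorem levelIdeal_map (σ : S.F ≃+* S.F) :
    (D.levelIdeal S.F).map (galInt σ) = D.levelIdeal S.F := by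
  rw [levelIdeal, Ideal.map_span, Set.image_singleton, map_natCast]

end Level

end Setup

end FermatAgent.LTG

end
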