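import Mathlib
import Fermat.Agent.LT.General.Geom.Facts
import Fermat.Agent.LT.Descent.Geom.LocalSetup
import Fermat.Agent.LT.Descent.Geom.Local.InertField

set_option autoImplicit false

/-!
# The data of the orbital sums at a place of `K`, general input
-/

noncomputable section

open NumberField IsDedekindDomain WithZero
open scoped MatrixGroups

namespace FermatAgent.LTG

open FermatAgent.LT (galInt galPlace galLoc LCos GLv locMat loc placeCast placeCast_loc continuous_placeCast)

variable (S : Setup)

/-- The places of `F` over a place of `K`. -/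
abbrev Setup.OverK (v : HeightOneSpectrum (𝓞 S.K)) :=
  {w : HeightOneSpectrum (𝓞 S.F) // S.underK w = v}

/-- The embedding of completions. -/
def Setup.inclLoc (w : HeightOneSpectrum (𝓞 S.F)) :
    (S.underK w).adicCompletion S.K →+* w.adicCompletion S.F :=
  letI : Algebra S.K S.F := S.inclKF.toRingHom.toAlgebra
  letI : Algebra (𝓞 S.K) (𝓞 S.F) := S.inclInt.toAlgebra
  haveI : IsScalarTower (𝓞 S.K) S.K S.F := IsScalarTower.of_algebraMap_eq fun _ => rfl
  haveI : IsScalarTower (𝓞 S.K) (𝓞 S.F) S.F := IsScalarTower.of_algebraMap_eq fun _ => rfl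
  haveI : Module.IsTorsionFree (𝓞 S.K) (𝓞 S.F) :=
    Module.isTorsionFree_iff_algebraMap_injective.mpr fun _a _b h => RingOfIntegers.coe_injective
      (S.inclKF.injective (congrArg (fun z : 𝓞 S.F => (z : S.F)) h))
  haveI : w.asIdeal.LiesOver (S.underK w).asIdeal := ⟨rfl⟩
  ((HeightOneSpectrum.adicCompletion.equiv S.F w).symm.toRingHom.comp
    (UniformSpace.Completion.mapRingHom
      (algebraMap (WithVal ((S.underK w).valuation S.K)) (WithVal (w.valuation S.F)))
      (HeightOneSpectrum.uniformContinuous_algebraMap_liesOver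
        (K := S.K) S.F (S.underK w) w).continuous)).comp
      (HeightOneSpectrum.adicCompletion.equiv S.K (S.underK w)).toRingHom

theorem Setup.inclLoc_loc (w : HeightOneSpectrum (𝓞 S.F)) (x : S.K) :
    S.inclLoc w (loc (S.underK w) x) = loc w (S.inclKF x) := by
  let _ : Algebra S.K S.F := S.inclKF.toRingHom.toAlgebra
  let _ : Algebra (𝓞 S.K) (𝓞 S.F) := S.inclInt.toAlgebra
  have : IsScalarTower (𝓞 S.K) S.K S.F := IsScalarTower.of_algebraMap_eq fun _ => rfl
  have : IsScalarTower (𝓞 S.K) (𝓞 S.F) S.F := IsScalarTower.of_algebraMap_eq fun _ => rfl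
  have : Module.IsTorsionFree (𝓞 S.K) (𝓞 S.F) :=
    Module.isTorsionFree_iff_algebraMap_injective.mpr fun a b h => RingOfIntegers.coe_injective
      (S.inclKF.injective (congrArg (fun z : 𝓞 S.F => (z : S.F)) h))
  have : w.asIdeal.LiesOver (S.underK w).asIdeal := ⟨rfl⟩
  change (HeightOneSpectrum.adicCompletion.equiv S.F w).symm _ = _
  rw [RingEquiv.symm_apply_eq]
  exact UniformSpace.Completion.mapRingHom_coe
    (HeightOneSpectrum.uniformContinuous_algebraMap_liesOver (K := S.K) S.F (S.underK w) w).continuous _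

/-- The embedding of completions at a place over `v`. -/
def Setup.inclOver {v : HeightOneSpectrum (𝓞 S.K)} (w : S.OverK v) :
    v.adicCompletion S.K →+* w.1.adicCompletion S.F :=
  (S.inclLoc w.1).comp (placeCast w.2.symm)

/-- The orbit data: a regular element of `GL₂(K)` and an element of norm it. -/
structure Setup.IsNormPair (σ : S.F ≃+* S.F) (t : GL (Fin 2) S.K) (δ : GL (Fin 2) S.F) : Prop where
  regular : (t : Matrix (Fin 2) (Fin 2) S.K).trace ^ 2 ≠ 4 * (t : Matrix (Fin 2) (Fin 2) S.K).det
  norm : δ * Matrix.GeneralLinearGroup.map σ.toRingHom δ *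
      Matrix.GeneralLinearGroup.map σ.toRingHom (Matrix.GeneralLinearGroup.map σ.toRingHom δ) =
    Matrix.GeneralLinearGroup.map S.inclKF.toRingHom t

theorem Setup.continuous_inclLoc (S : Setup) (w : HeightOneSpectrum (𝓞 S.F)) :
    Continuous (S.inclLoc w) := by
  refine (HeightOneSpectrum.adicCompletion.isUniformInducing_toCompletion S.F w).isInducing.continuous_iff.mpr ?_
  exact UniformSpace.Completion.continuous_map.comp
    (HeightOneSpectrum.adicCompletion.isUniformInducing_toCompletion S.K _).isInducing.continuous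

theorem Setup.inclOver_loc (S : Setup) {v : HeightOneSpectrum (𝓞 S.K)} (w : S.OverK v) (x : S.K) :
    S.inclOver w (loc v x) = loc w.1 (S.inclKF x) := by
  rw [Setup.inclOver, RingHom.comp_apply, placeCast_loc, S.inclLoc_loc]

theorem Setup.continuous_inclOver (S : Setup) {v : HeightOneSpectrum (𝓞 S.K)} (w : S.OverK v) :
    Continuous (S.inclOver w) :=
  (S.continuous_inclLoc _).comp (continuous_placeCast _)

theorem Setup.map_inclOver_locMat (S : Setup) {v : HeightOneSpectrum (𝓞 S.K)} (w : S.OverK v)
    (γ : GL (Fin 2) S.K) :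
    Matrix.GeneralLinearGroup.map (S.inclOver w) (locMat v γ) =
      locMat w.1 (Matrix.GeneralLinearGroup.map S.inclKF.toRingHom γ) :=
  Units.ext (Matrix.ext fun i j => S.inclOver_loc w (γ i j))

section Generic

variable {L : Type*} [Field L] [NumberField L]

/-- The action of an automorphism on the cosets at a place. -/
def galLCos {𝔫 : Ideal (𝓞 L)} (σ : L ≃+* L) (w : HeightOneSpectrum (𝓞 L))
    (q : LCos 𝔫 (galPlace σ w)) : LCos 𝔫 w :=
  ((Matrix.GeneralLinearGroup.map (galLoc σ w) q.out : GLv w) : LCos 𝔫 w)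

variable (v : HeightOneSpectrum (𝓞 L))

/-- The centraliser of `t` at `v`. -/
def torusAt (t : GL (Fin 2) L) : Subgroup (GLv v) := Subgroup.centralizer {locMat v t}

/-- Integrality up to scalars. -/
def IsUnitElt (g : GLv v) : Prop :=
  ∃ c : v.adicCompletion L, Valued.v (c ^ 2 * (g : Matrix (Fin 2) (Fin 2) _).det) = 1 ∧
    Valued.v (c * (g : Matrix (Fin 2) (Fin 2) _).trace) ≤ 1

/-- The bounded part of the centraliser. -/
def torusU (t : GL (Fin 2) L) : Subgroup (GLv v) :=
  Subgroup.closure {g | g ∈ torusAt v t ∧ IsUnitElt v g}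

end Generic

variable {S}

/-- The next place over `v`. -/
def Setup.nextOver {σ : S.F ≃+* S.F} (hσ : S.IsGalGen σ) {v : HeightOneSpectrum (𝓞 S.K)}
    (w : S.OverK v) : S.OverK v :=
  ⟨galPlace σ w.1, (S.underK_galPlace hσ w.1).trans w.2⟩

namespace Setup.Level

variable (D : S.Level) (v : HeightOneSpectrum (𝓞 S.K))

/-- The cosets of `F` over `v`. -/
abbrev XF := ∀ w : S.OverK v, LCos (D.levelIdeal S.F) w.1

instance : MulAction (GLv v) (D.XF v) :=
  MulAction.compHom (D.XF v)
    (MonoidHom.pi fun w : S.OverK v => Matrix.GeneralLinearGroup.map (S.inclOver w))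

theorem XF_smul_apply (g : GLv v) (x : D.XF v) (w : S.OverK v) :
    (g • x) w = (Matrix.GeneralLinearGroup.map (S.inclOver w) g : GLv w.1) • x w := rfl

variable {v}

/-- The image of a coset of `K` in the cosets of `F` at a place over it. -/
def inclLCos (w : S.OverK v) (y : LCos (D.levelIdeal S.K) v) : LCos (D.levelIdeal S.F) w.1 :=
  ((Matrix.GeneralLinearGroup.map (S.inclOver w) y.out : GLv w.1) : LCos (D.levelIdeal S.F) w.1)

end Setup.Level

end FermatAgent.LTG

end
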