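import Mathlib
import Fermat.Agent.LT.General.Geom.LocalSetup
import Fermat.Agent.LT.General.Spectral.Word
import Fermat.Agent.LT.Descent.Geom.Factor
import Fermat.Agent.LT.Descent.Geom.Local.OpBdd
import Fermat.Agent.LT.Descent.Geom.HeightY
import Fermat.Agent.LT.Descent.Geom.SplitGeom

set_option autoImplicit false

/-!
# The local data of the level consumed by the geometric identity

`LocalOps`: the projections of the level as products over the places over `m`, invariant and of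
bounded propagation, agreeing at the moved places.  `FixedMatch`: the matching at the places over
`m` with a single place of `F` over them, up to one constant for each place.
-/

noncomputable section

open NumberField IsDedekindDomain
open scoped MatrixGroups

namespace FermatAgent.LTG

open FermatAgent.LT (galPlace LCos GLv locMat liftProd opPair IsCosetOp IsBddOp lKer locHecke
  partCos)
open FermatAgent.LT.Inert (IsFundSet)

namespace Setup.Level

variable {S : Setup} (D : S.Level) (σ : S.F ≃+* S.F)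

/-- The projections of the level as products of local operators. -/
structure LocalOps where
  /-- the local factors on `F` -/
  locF : ∀ w : HeightOneSpectrum (𝓞 S.F), Module.End ℂ (LCos (D.levelIdeal S.F) w → ℂ)
  /-- the local factors on `K` -/
  locK : ∀ v : HeightOneSpectrum (𝓞 S.K), Module.End ℂ (LCos (D.levelIdeal S.K) v → ℂ)
  goodF : ∀ w, (S.m : 𝓞 S.F) ∉ w.asIdeal → locF w = 1
  goodK : ∀ v, (S.m : 𝓞 S.K) ∉ v.asIdeal → locK v = 1
  levelF_eq : D.levelOpF σ = liftProd ((S.badPlaces S.F).toList.map fun w => opPair w (locF w))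
  levelK_eq : D.levelOpK = liftProd ((S.badPlaces S.K).toList.map fun v => opPair v (locK v))
  cosetF : IsCosetOp (D.levelOpF σ)
  cosetK : IsCosetOp D.levelOpK
  bddF : ∀ w, IsBddOp (locF w)
  bddK : ∀ v, IsBddOp (locK v)
  smulF : ∀ w (g : GLv w) a b, lKer (locF w) (g • a) (g • b) = lKer (locF w) a b
  smulK : ∀ v (g : GLv v) a b, lKer (locK v) (g • a) (g • b) = lKer (locK v) a b
  idemK : ∀ v, locK v * locK v = locK v
  moved : ∀ (v : HeightOneSpectrum (𝓞 S.K)) (u : S.OverK v), (S.m : 𝓞 S.K) ∈ v.asIdeal →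
    galPlace σ u.1 ≠ u.1 → ∀ a b,
      lKer (locF u.1) (D.inclLCos u a) (D.inclLCos u b) = lKer (locK v) a b

variable {D σ}

/-- The twisted kernel of the level over `v`. -/
def LocalOps.baseF (Λ : D.LocalOps σ) (hσ : S.IsGalGen σ) (δ : GL (Fin 2) S.F)
    (v : HeightOneSpectrum (𝓞 S.K)) (x : D.XF v) : ℂ :=
  ∏ᶠ w : S.OverK v, lKer (Λ.locF w.1) (x w)
    (locMat w.1 δ • galLCos σ w.1 (x (S.nextOver hσ w)))

/-- The kernel of the level at `v`. -/
def LocalOps.baseK (Λ : D.LocalOps σ) (t : GL (Fin 2) S.K) (v : HeightOneSpectrum (𝓞 S.K))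
    (y : LCos (D.levelIdeal S.K) v) : ℂ :=
  lKer (Λ.locK v) y (locMat v t • y)

/-- The matching at the fixed places over `m`. -/
structure FixedMatch (Λ : D.LocalOps σ) (hσ : S.IsGalGen σ) where
  /-- the ratio of the orbital sums -/
  cst : HeightOneSpectrum (𝓞 S.K) → ℂ
  orbital : ∀ v : HeightOneSpectrum (𝓞 S.K), (S.m : 𝓞 S.K) ∈ v.asIdeal → S.IsFixed v →
    ∀ (t : GL (Fin 2) S.K) (δ : GL (Fin 2) S.F), S.IsNormPair σ t δ →
    ∀ (ΩF : Set (D.XF v)) (ΩK : Set (LCos (D.levelIdeal S.K) v)),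
      IsFundSet (torusAt v t) (torusU v t) Set.univ ΩF →
      IsFundSet (torusAt v t) (torusU v t) Set.univ ΩK →
      (ΩF ∩ Function.support (Λ.baseF hσ δ v)).Finite ∧
        ∑ᶠ x ∈ ΩF, Λ.baseF hσ δ v x = cst v * ∑ᶠ y ∈ ΩK, Λ.baseK t v y
  weight : ∀ v : HeightOneSpectrum (𝓞 S.K), (S.m : 𝓞 S.K) ∈ v.asIdeal → S.IsFixed v →
    ∀ (t : GL (Fin 2) S.K) (δ : GL (Fin 2) S.F) (a : S.K), S.IsNormPair σ t δ →
    (t : Matrix (Fin 2) (Fin 2) S.K) = Matrix.diagonal ![a, 1] →
    ∀ (w : S.OverK v) (ΩF : Set (D.XF v)) (ΩK : Set (LCos (D.levelIdeal S.K) v)),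
      IsFundSet (torusAt v t) (torusU v t) Set.univ ΩF →
      IsFundSet (torusAt v t) (torusU v t) Set.univ ΩK →
        ∑ᶠ x ∈ ΩF, Λ.baseF hσ δ v x * (partCos w.1 (x w) : ℂ) =
          3 * cst v * ∑ᶠ y ∈ ΩK, Λ.baseK t v y * (partCos v y : ℂ)
  nonnorm : ∀ v : HeightOneSpectrum (𝓞 S.K), (S.m : 𝓞 S.K) ∈ v.asIdeal → S.IsFixed v →
    ∀ (t : GL (Fin 2) S.K) (y : LCos (D.levelIdeal S.K) v), Λ.baseK t v y ≠ 0 →
      ∃ (d : GLv v) (c : v.adicCompletion S.K),
        (d : Matrix (Fin 2) (Fin 2) (v.adicCompletion S.K)) ^ 3 =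
          c • (locMat v t : Matrix (Fin 2) (Fin 2) (v.adicCompletion S.K))

open Classical in
/-- The local operator at a place of `F` of the level and a word. -/
def LocalOps.opF (Λ : D.LocalOps σ) (l : List (HeightOneSpectrum (𝓞 S.F)))
    (w : HeightOneSpectrum (𝓞 S.F)) : Module.End ℂ (LCos (D.levelIdeal S.F) w → ℂ) :=
  Λ.locF w * locHecke _ w ^ l.count w

open Classical in
/-- The local operator at a place of `K` of the level and the matching word. -/
def LocalOps.opK (Λ : D.LocalOps σ) (l : List (HeightOneSpectrum (𝓞 S.F)))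
    (v : HeightOneSpectrum (𝓞 S.K)) : Module.End ℂ (LCos (D.levelIdeal S.K) v → ℂ) :=
  Λ.locK v * locHecke _ v ^ (l.map S.underK).count v

/-- The twisted local kernel over `v`. -/
def LocalOps.bF (Λ : D.LocalOps σ) (l : List (HeightOneSpectrum (𝓞 S.F))) (hσ : S.IsGalGen σ)
    (δ : GL (Fin 2) S.F) (v : HeightOneSpectrum (𝓞 S.K)) (x : D.XF v) : ℂ :=
  ∏ᶠ w : S.OverK v, lKer (Λ.opF l w.1) (x w)
    (locMat w.1 δ • galLCos σ w.1 (x (S.nextOver hσ w)))

/-- The local kernel at `v`. -/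
def LocalOps.bK (Λ : D.LocalOps σ) (l : List (HeightOneSpectrum (𝓞 S.F)))
    (t : GL (Fin 2) S.K) (v : HeightOneSpectrum (𝓞 S.K))
    (y : LCos (D.levelIdeal S.K) v) : ℂ :=
  lKer (Λ.opK l v) y (locMat v t • y)

end Setup.Level

end FermatAgent.LTG

end
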