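import Mathlib
import Fermat.Agent.LT.General.Geom.LocalData

set_option autoImplicit false

/-!
# The kernels of the two sides factor over the places, general input
-/

noncomputable section

open NumberField IsDedekindDomain Filter
open scoped MatrixGroups

namespace FermatAgent.LTG

open FermatAgent.LT (Cosets heckeWord liftProd opPair opsAt opsAt_append opsAt_map_nodup
  opsAt_heckeList heckeWord_eq_liftProd liftProd_append finKer finKer_liftProd lKer coordAt
  locHecke)

variable {S : Setup} {D : S.Level} {σ : S.F ≃+* S.F} (Λ : D.LocalOps σ)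

open Classical in
theorem Setup.Level.LocalOps.opsAt_levelF (w : HeightOneSpectrum (𝓞 S.F)) :
    opsAt ((S.badPlaces S.F).toList.map fun u => opPair u (Λ.locF u)) w = Λ.locF w := by
  rw [opsAt_map_nodup (fun u => Λ.locF u) w _ (Finset.nodup_toList _)]
  split_ifs with h
  · rfl
  · rw [Finset.mem_toList, S.mem_badPlaces_iff] at h
    exact (Λ.goodF w h).symm

open Classical in
theorem Setup.Level.LocalOps.opsAt_levelK (v : HeightOneSpectrum (𝓞 S.K)) :
    opsAt ((S.badPlaces S.K).toList.map fun u => opPair u (Λ.locK u)) v = Λ.locK v := by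
  rw [opsAt_map_nodup (fun u => Λ.locK u) v _ (Finset.nodup_toList _)]
  split_ifs with h
  · rfl
  · rw [Finset.mem_toList, S.mem_badPlaces_iff] at h
    exact (Λ.goodK v h).symm

theorem good_underK {w : HeightOneSpectrum (𝓞 S.F)} (hw : (S.m : 𝓞 S.F) ∉ w.asIdeal) :
    (S.m : 𝓞 S.K) ∉ (S.underK w).asIdeal :=
  fun h => hw ((S.natCast_mem_underK w _).mp h)

/-- The kernel of the operator on `F` is the product of the local kernels. -/
theorem Setup.Level.LocalOps.finKer_levelOpF (l : List (HeightOneSpectrum (𝓞 S.F)))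
    (hl : ∀ w ∈ l, (S.m : 𝓞 S.F) ∉ w.asIdeal) (a b : Cosets (D.levelIdeal S.F)) :
    finKer (D.levelOpF σ * heckeWord _ l) a b =
      ∏ᶠ w, lKer (Λ.opF l w) (coordAt w a) (coordAt w b) := by
  have h := D.levelIdeal_ne_bot S.F
  rw [Λ.levelF_eq, heckeWord_eq_liftProd h l fun w hw => D.not_levelIdeal_le (hl w hw),
    ← liftProd_append, finKer_liftProd h]
  refine finprod_congr fun w => ?_
  rw [opsAt_append, Λ.opsAt_levelF, opsAt_heckeList]
  rfl

/-- The kernel of the operator on `K` is the product of the local kernels. -/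
theorem Setup.Level.LocalOps.finKer_levelOpK (l : List (HeightOneSpectrum (𝓞 S.F)))
    (hl : ∀ w ∈ l, (S.m : 𝓞 S.F) ∉ w.asIdeal) (a b : Cosets (D.levelIdeal S.K)) :
    finKer (D.levelOpK * (l.map D.bcOp).prod) a b =
      ∏ᶠ v, lKer (Λ.opK l v) (coordAt v a) (coordAt v b) := by
  have h := D.levelIdeal_ne_bot S.K
  have e : (l.map D.bcOp).prod = heckeWord (D.levelIdeal S.K) (l.map S.underK) := by
    rw [heckeWord, List.map_map]
    rfl
  rw [Λ.levelK_eq, e, heckeWord_eq_liftProd h _ fun v hv => ?_, ← liftProd_append,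
    finKer_liftProd h]
  · refine finprod_congr fun v => ?_
    rw [opsAt_append, Λ.opsAt_levelK, opsAt_heckeList]
    rfl
  · obtain ⟨w, hw, rfl⟩ := List.mem_map.mp hv
    exact D.not_levelIdeal_le (good_underK (hl w hw))

end FermatAgent.LTG

end
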