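import Mathlib
import Fermat.Agent.LT.General.Geom.Orbit
import Fermat.Agent.LT.General.Geom.Local.Statements
import Fermat.Agent.LT.Descent.Geom.OrbitSum

set_option autoImplicit false

/-!
# Orbit maps and orbital sums of the finite kernels, general input
-/

noncomputable section

open NumberField IsDedekindDomain Filter
open scoped MatrixGroups

namespace FermatAgent.LTG

open FermatAgent.LT (Cosets GAf GLv LCos locMat locLevel coordAt rationalMat galPlace galLoc
  galLoc_coe continuous_galLoc loc galCoset finKer lKer heckeWord eventually_coordAt_eq_base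
  finsum_fibre)

variable {S : Setup} {D : S.Level} {σ : S.F ≃+* S.F} (Λ : D.LocalOps σ)
  (l : List (HeightOneSpectrum (𝓞 S.F))) (hl : S.GoodWord l)

theorem eventually_cfac {hσ : S.IsGalGen σ} (M : Setup.Level.FixedMatch Λ hσ) :
    ∀ᶠ v in cofinite, cfac Λ M v = 1 :=
  eventually_cofinite.mpr (finite_mulSupport_cfac Λ M)

include hl in
theorem Setup.Level.LocalOps.bK_smul (t : GL (Fin 2) S.K) (v : HeightOneSpectrum (𝓞 S.K)) {g : GLv v}
    (hg : g ∈ torusAt v t) (y : LCos (D.levelIdeal S.K) v) :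
    Λ.bK l t v (g • y) = Λ.bK l t v y := by
  have e : locMat v t * g = g * locMat v t := Subgroup.mem_centralizer_singleton_iff.mp hg |>.symm
  rw [Setup.Level.LocalOps.bK, Setup.Level.LocalOps.bK, ← mul_smul, e, mul_smul, lKer_opK_smul Λ l hl]

variable {hσ : S.IsGalGen σ} {t : GL (Fin 2) S.K} {δ : GL (Fin 2) S.F}

theorem Setup.galLoc_inclOver (hσ : S.IsGalGen σ) {v : HeightOneSpectrum (𝓞 S.K)} (w : S.OverK v) (x : v.adicCompletion S.K) :
    galLoc σ w.1 (S.inclOver (S.nextOver hσ w) x) = S.inclOver w x := by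
  refine congrFun (DenseRange.equalizer (HeightOneSpectrum.denseRange_algebraMap (K := S.K) v)
    ((continuous_galLoc σ w.1).comp (S.continuous_inclOver _)) (S.continuous_inclOver w)
    (funext fun k => ?_)) x
  show galLoc σ w.1 (S.inclOver (S.nextOver hσ w) (loc v k)) = S.inclOver w (loc v k)
  rw [S.inclOver_loc, S.inclOver_loc]
  show galLoc σ w.1 (loc (galPlace σ w.1) (S.inclKF k)) = _
  rw [galLoc_coe, hσ.2]

include hl in
theorem Setup.Level.LocalOps.bF_smul (h : S.IsNormPair σ t δ) (v : HeightOneSpectrum (𝓞 S.K)) {g : GLv v}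
    (hg : g ∈ torusAt v t) (x : D.XF v) : Λ.bF l hσ δ v (g • x) = Λ.bF l hσ δ v x := by
  refine finprod_congr fun w => ?_
  show lKer _ (Matrix.GeneralLinearGroup.map (S.inclOver w) g • x w)
    (locMat w.1 δ • galLCos σ w.1 (Matrix.GeneralLinearGroup.map (S.inclOver (S.nextOver hσ w)) g •
      x (S.nextOver hσ w))) = _
  have hgal : Matrix.GeneralLinearGroup.map (galLoc σ w.1)
      (Matrix.GeneralLinearGroup.map (S.inclOver (S.nextOver hσ w)) g) =
      Matrix.GeneralLinearGroup.map (S.inclOver w) g :=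
    Units.ext (Matrix.ext fun i j => S.galLoc_inclOver hσ w (g i j))
  have hsm : ∀ (k : GLv (galPlace σ w.1)) (q : LCos (D.levelIdeal S.F) (galPlace σ w.1)),
      galLCos σ w.1 (k • q) =
        Matrix.GeneralLinearGroup.map (galLoc σ w.1) k • galLCos σ w.1 q := fun k q => by
    obtain ⟨a, rfl⟩ := QuotientGroup.mk_surjective q
    have hm : ∀ b : GLv (galPlace σ w.1),
        galLCos σ w.1 (b : LCos (D.levelIdeal S.F) (galPlace σ w.1)) =
          ((Matrix.GeneralLinearGroup.map (galLoc σ w.1) b : GLv w.1) : LCos (D.levelIdeal S.F) w.1) :=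
      fun b => by
        rw [galLCos, QuotientGroup.eq, ← map_inv, ← map_mul]
        exact map_galLoc_mem_locLevel w.1 (QuotientGroup.eq.mp (QuotientGroup.out_eq' _))
    rw [MulAction.Quotient.smul_coe, hm, hm, MulAction.Quotient.smul_coe, smul_eq_mul, smul_eq_mul,
      map_mul]
  have hcomm : locMat w.1 δ * Matrix.GeneralLinearGroup.map (S.inclOver w) g =
      Matrix.GeneralLinearGroup.map (S.inclOver w) g * locMat w.1 δ := by
    set T := Matrix.GeneralLinearGroup.map (S.inclOver w) (locMat v t) with hT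
    have hM : LT.Classes.NonScalar (T : Matrix (Fin 2) (Fin 2) (w.1.adicCompletion S.F)) :=
      LT.Classes.nonScalar_of_disc (regular_inclGL w h.regular)
    have e1 : locMat w.1 δ * T = T * locMat w.1 δ := by
      rw [hT, S.map_inclOver_locMat, ← map_mul, ← map_mul, h.commute hσ]
    have e2 : Matrix.GeneralLinearGroup.map (S.inclOver w) g * T =
        T * Matrix.GeneralLinearGroup.map (S.inclOver w) g := by
      rw [hT, ← map_mul, ← map_mul, Subgroup.mem_centralizer_singleton_iff.mp hg]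
    exact Units.ext (LT.Classes.commute_of_commute hM (congrArg Units.val e1) (congrArg Units.val e2))
  refine (congrArg (fun q => lKer (Λ.opF l w.1)
    (Matrix.GeneralLinearGroup.map (S.inclOver w) g • x w) (locMat w.1 δ • q))
    ((hsm _ (x (S.nextOver hσ w))).trans
      (congrArg (fun k : GLv w.1 => k • galLCos σ w.1 (x (S.nextOver hσ w))) hgal))).trans ?_
  rw [← mul_smul, hcomm, mul_smul, lKer_opF_smul Λ l hl]

/-! ### Orbit maps and sums -/

variable (ht : (t : Matrix (Fin 2) (Fin 2) S.K).trace ^ 2 ≠ 4 * (t : Matrix (Fin 2) (Fin 2) S.K).det)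

/-- The orbit map at a place of `K`. -/
def Setup.Level.phiK (D : S.Level) (hσ : S.IsGalGen σ)
    (_ht : (t : Matrix (Fin 2) (Fin 2) S.K).trace ^ 2 ≠ 4 * (t : Matrix (Fin 2) (Fin 2) S.K).det) (v : HeightOneSpectrum (𝓞 S.K)) : LT.OrbitMap (torusAt v t) (torusU v t) (D.baseXK v) :=
  Classical.choice (LT.OrbitMap.nonempty fun y g hg he =>
    stabilizer_le_torusU hσ v y (D.baseXF v) g hg (Or.inl he))

/-- The orbit map over a place of `K`. -/
def Setup.Level.phiF (D : S.Level) (hσ : S.IsGalGen σ)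
    (_ht : (t : Matrix (Fin 2) (Fin 2) S.K).trace ^ 2 ≠ 4 * (t : Matrix (Fin 2) (Fin 2) S.K).det) (v : HeightOneSpectrum (𝓞 S.K)) : LT.OrbitMap (torusAt v t) (torusU v t) (D.baseXF v) :=
  Classical.choice (LT.OrbitMap.nonempty fun x g hg he =>
    stabilizer_le_torusU hσ v (D.baseXK v) x g hg (Or.inr he))

theorem Setup.Level.isFundSet_phiK (D : S.Level) (hσ : S.IsGalGen σ)
    (ht : (t : Matrix (Fin 2) (Fin 2) S.K).trace ^ 2 ≠ 4 * (t : Matrix (Fin 2) (Fin 2) S.K).det) (v : HeightOneSpectrum (𝓞 S.K)) :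
    LT.Inert.IsFundSet (torusAt v t) (torusU v t) Set.univ (D.phiK hσ ht v).fibre :=
  (D.phiK hσ ht v).isFundSet (torusU_le' ht).1

theorem Setup.Level.isFundSet_phiF (D : S.Level) (hσ : S.IsGalGen σ)
    (ht : (t : Matrix (Fin 2) (Fin 2) S.K).trace ^ 2 ≠ 4 * (t : Matrix (Fin 2) (Fin 2) S.K).det) (v : HeightOneSpectrum (𝓞 S.K)) :
    LT.Inert.IsFundSet (torusAt v t) (torusU v t) Set.univ (D.phiF hσ ht v).fibre :=
  (D.phiF hσ ht v).isFundSet (torusU_le' ht).1

/-- The orbital sum of the finite kernel on `K`. -/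
def Setup.Level.LocalOps.orbK : ℂ := ∏ᶠ v, ∑ᶠ y ∈ (D.phiK hσ ht v).fibre, Λ.bK l t v y

/-- Almost everywhere the base point is the only contribution. -/
theorem Setup.Level.LocalOps.eventually_phiK : ∀ᶠ v in cofinite, Λ.bK l t v (D.baseXK v) = 1 ∧
    ∀ y ∈ (D.phiK hσ ht v).fibre, y ≠ D.baseXK v → Λ.bK l t v y = 0 := by
  filter_upwards [Λ.eventually_bK_base l t, eventually_single_orbit' (D.levelIdeal_ne_bot S.K) ht] with v h1 h2
  refine ⟨h1.1, fun y hy hne => by_contra fun h0 => hne ?_⟩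
  obtain ⟨g, hg, rfl⟩ := h2.2 y (h1.2 y h0)
  have h3 : ((⟨g, hg⟩ : torusAt v t) : torusAt v t ⧸ (torusU v t).subgroupOf (torusAt v t)) =
      ((1 : torusAt v t) : torusAt v t ⧸ (torusU v t).subgroupOf (torusAt v t)) := by
    refine Eq.trans ?_ hy
    have e := (D.phiK hσ ht v).map_smul ⟨g, hg⟩ (D.baseXK v)
    rw [(D.phiK hσ ht v).map_base, MulAction.Quotient.smul_coe, smul_eq_mul, mul_one] at e
    exact e.symm
  rw [QuotientGroup.eq, mul_one, Subgroup.mem_subgroupOf] at h3
  show g • ((1 : GLv v) : LCos (D.levelIdeal S.K) v) = ((1 : GLv v) : LCos (D.levelIdeal S.K) v)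
  rw [MulAction.Quotient.smul_coe, smul_eq_mul, mul_one, QuotientGroup.eq, mul_one]
  exact inv_mem (h2.1 g (by simpa using inv_mem h3))

theorem finsum_fibre_bK_eq_one : ∀ᶠ v in cofinite,
    ∑ᶠ y ∈ (D.phiK hσ ht v).fibre, Λ.bK l t v y = 1 := by
  filter_upwards [Λ.eventually_phiK l (hσ := hσ) ht] with v hv
  rw [finsum_mem_eq_sum_of_inter_support_eq (t := {D.baseXK v}) _ ?_, Finset.sum_singleton, hv.1]
  ext y
  simp only [Set.mem_inter_iff, Function.mem_support, Finset.coe_singleton, Set.mem_singleton_iff]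
  exact ⟨fun h => ⟨by_contra fun hne => h.2 (hv.2 y h.1 hne), h.2⟩,
    fun h => ⟨h.1 ▸ (D.phiK hσ ht v).base_mem, h.2⟩⟩

include hl in
/-- The sums over the fibres on `K`. -/
theorem Setup.Level.LocalOps.finsum_fibre_K (a : ∀ v, torusAt v t ⧸ (torusU v t).subgroupOf (torusAt v t))
    (ha : ∀ᶠ v in cofinite, a v =
      ((1 : torusAt v t) : torusAt v t ⧸ (torusU v t).subgroupOf (torusAt v t))) :
    ({c : Cosets (D.levelIdeal S.K) | ∀ v, (D.phiK hσ ht v).toFun (coordAt v c) = a v} ∩
        Function.support fun c => finKer (D.levelOpK * (l.map D.bcOp).prod) c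
          (rationalMat t • c)).Finite ∧
      ∑ᶠ c ∈ {c : Cosets (D.levelIdeal S.K) | ∀ v, (D.phiK hσ ht v).toFun (coordAt v c) = a v},
        finKer (D.levelOpK * (l.map D.bcOp).prod) c (rationalMat t • c) = Λ.orbK l (hσ := hσ) ht := by
  simp only [Λ.finKer_plain l t (fun u hu => (hl u hu).1)]
  exact finsum_fibre (fun (c : Cosets (D.levelIdeal S.K)) v => coordAt v c) D.coordK_injective
    D.exists_coordK_eq (eventually_coordAt_eq_base (D.levelIdeal_ne_bot S.K)) (D.phiK hσ ht)
    (Λ.bK l t) (fun v g hg y => Λ.bK_smul l hl t v hg y)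
    (fun v => finite_supp_bK ht Λ l v (D.isFundSet_phiK hσ ht v)) (Λ.eventually_phiK l (hσ := hσ) ht) a ha

variable (M : Setup.Level.FixedMatch Λ hσ)

include M hl in
/-- Almost everywhere the base point is the only contribution over a place of `K`. -/
theorem Setup.Level.LocalOps.eventually_phiF (h : S.IsNormPair σ t δ) :
    ∀ᶠ v in cofinite, Λ.bF l hσ δ v (D.baseXF v) = 1 ∧
      ∀ x ∈ (D.phiF hσ h.regular v).fibre, x ≠ D.baseXF v → Λ.bF l hσ δ v x = 0 := by
  filter_upwards [finsum_fibre_bK_eq_one Λ l (hσ := hσ) h.regular, Λ.eventually_bF_base l hσ δ,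
    eventually_cfac Λ M] with v h1 h2 hc
  obtain ⟨hfin, hm⟩ := local_matching Λ l hl M h v (D.isFundSet_phiF hσ h.regular v)
    (D.isFundSet_phiK hσ h.regular v)
  refine ⟨h2.1, fun x hx hne => by_contra fun hx0 => ?_⟩
  have hs : ∀ y ∈ hfin.toFinset, Λ.bF l hσ δ v y = 1 := fun y hy =>
    (h2.2 y).resolve_left ((hfin.mem_toFinset.mp hy).2)
  rw [h1, hc, one_mul, finsum_mem_eq_sum _ hfin, Finset.sum_congr rfl hs, Finset.sum_const, nsmul_one,
    Nat.cast_eq_one] at hm
  obtain ⟨z, hz⟩ := Finset.card_eq_one.mp hm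
  have hb : D.baseXF v ∈ hfin.toFinset :=
    hfin.mem_toFinset.mpr ⟨(D.phiF hσ h.regular v).base_mem, by
      rw [Function.mem_support, h2.1]; exact one_ne_zero⟩
  have hx' : x ∈ hfin.toFinset := hfin.mem_toFinset.mpr ⟨hx, hx0⟩
  rw [hz, Finset.mem_singleton] at hb hx'
  exact hne (hx'.trans hb.symm)

include M hl in
/-- **The orbital sums of the twisted kernel are those of the plain one.** -/
theorem Setup.Level.LocalOps.finsum_fibre_F (h : S.IsNormPair σ t δ)
    (a : ∀ v, torusAt v t ⧸ (torusU v t).subgroupOf (torusAt v t))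
    (ha : ∀ᶠ v in cofinite, a v =
      ((1 : torusAt v t) : torusAt v t ⧸ (torusU v t).subgroupOf (torusAt v t))) :
    ({c : Cosets (D.levelIdeal S.F) | ∀ v, (D.phiF hσ h.regular v).toFun (D.coordF v c) = a v} ∩
        Function.support fun c => finKer (D.levelOpF σ * heckeWord _ l) c
          (rationalMat δ • galCoset σ c)).Finite ∧
      ∑ᶠ c ∈ {c : Cosets (D.levelIdeal S.F) | ∀ v, (D.phiF hσ h.regular v).toFun (D.coordF v c) = a v},
        finKer (D.levelOpF σ * heckeWord _ l) c (rationalMat δ • galCoset σ c) =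
          cfin Λ M * Λ.orbK l (hσ := hσ) h.regular := by
  simp only [Λ.finKer_twist l hσ δ (fun u hu => (hl u hu).1)]
  have hlm := fun v => local_matching Λ l hl M h v (D.isFundSet_phiF hσ h.regular v)
    (D.isFundSet_phiK hσ h.regular v)
  have := finsum_fibre (fun (c : Cosets (D.levelIdeal S.F)) v => D.coordF v c) D.coordF_injective
    D.exists_coordF_eq D.eventually_coordF (D.phiF hσ h.regular) (Λ.bF l hσ δ)
    (fun v g hg x => Λ.bF_smul l hl h v hg x) (fun v => (hlm v).1)
    (Λ.eventually_phiF l hl M h) a ha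
  refine ⟨this.1, this.2.trans ((finprod_congr fun v => (hlm v).2).trans ?_)⟩
  exact finprod_mul_distrib (finite_mulSupport_cfac Λ M)
    (eventually_cofinite.mp (finsum_fibre_bK_eq_one Λ l (hσ := hσ) h.regular))

end FermatAgent.LTG

end
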