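import Fermat.Agent.LT.General.Classes.Parity
import Fermat.Agent.LT.General.Classes.Decomp
import Fermat.Agent.LT.General.Geom.Factor
import Fermat.Agent.LT.Descent.Geom.OrbitSum
import Fermat.Agent.LT.Descent.Geom.Main
import Fermat.Agent.LT.General.Spectral.Word

set_option autoImplicit false

/-!
# An odd word leaves only the classes of odd valuation, general setup
-/

noncomputable section

open NumberField IsDedekindDomain Filter
open scoped MatrixGroups

namespace FermatAgent.LTG

open FermatAgent.LT (H3 YSpace yKer heckeWord galY mk_smul finKer lKer lKer_one coordAt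
  eventually_coordAt_eq_base rationalMat galCoset galPlace locHecke ClassSys)
open FermatAgent.LT.TF (nm)
open FermatAgent.LT.Classes (pGal OddVal)

variable {S : Setup} {D : S.Level} {σ : S.F ≃+* S.F} (Λ : D.LocalOps σ)
  (l : List (HeightOneSpectrum (𝓞 S.F))) (hl : ∀ w ∈ l, (S.m : 𝓞 S.F) ∉ w.asIdeal)

theorem eventually_opF_eq_one : ∀ᶠ w in cofinite, Λ.opF l w = 1 := by
  classical
  filter_upwards [(S.badPlaces S.F).finite_toSet.compl_mem_cofinite,
    l.toFinset.finite_toSet.compl_mem_cofinite] with w h1 h2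
  simp only [Set.mem_compl_iff, SetLike.mem_coe, S.mem_badPlaces_iff, List.mem_toFinset] at h1 h2
  rw [Setup.Level.LocalOps.opF, Λ.goodF w h1, List.count_eq_zero_of_not_mem h2, pow_zero, mul_one]

theorem eventually_opK_eq_one : ∀ᶠ v in cofinite, Λ.opK l v = 1 := by
  classical
  filter_upwards [(S.badPlaces S.K).finite_toSet.compl_mem_cofinite,
    (l.map S.underK).toFinset.finite_toSet.compl_mem_cofinite] with v h1 h2
  simp only [Set.mem_compl_iff, SetLike.mem_coe, S.mem_badPlaces_iff, List.mem_toFinset] at h1 h2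
  rw [Setup.Level.LocalOps.opK, Λ.goodK v h1, List.count_eq_zero_of_not_mem h2, pow_zero, mul_one]

open Classical in
include Λ hl in
/-- **Parity on `F`.** -/
theorem oddVal_of_kerF (hσ : S.IsGalGen σ) {h : InfinitePlace S.F → H3 → H3 → ℂ}
    {w₀ : HeightOneSpectrum (𝓞 S.F)} (hne₀ : galPlace σ w₀ ≠ w₀)
    (hv : (S.m : 𝓞 S.K) ∉ (S.underK w₀).asIdeal)
    (hodd : Odd (l.countP fun w => S.underK w = S.underK w₀))
    {γ : PGL(2, S.F)} {y : YSpace (D.levelIdeal S.F)}
    (hne : yKer h (D.levelOpF σ * heckeWord (D.levelIdeal S.F) l) y (γ • galY σ y) ≠ 0) :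
    OddVal w₀ (nm (pGal σ) γ) := by
  obtain ⟨g, rfl⟩ := Matrix.ProjGenLinGroup.mk_surjective γ
  replace hne : finKer (D.levelOpF σ * heckeWord (D.levelIdeal S.F) l) y.2
      (rationalMat g • galCoset σ y.2) ≠ 0 := by
    rw [mk_smul] at hne
    exact right_ne_zero_of_mul hne
  rw [Λ.finKer_levelOpF l hl] at hne
  have hfin : (Function.mulSupport fun u => lKer (Λ.opF l u) (coordAt u y.2)
      (coordAt u (rationalMat g • galCoset σ y.2))).Finite := by
    refine eventually_cofinite.mp (?_ : ∀ᶠ u in cofinite, lKer (Λ.opF l u) (coordAt u y.2)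
      (coordAt u (rationalMat g • galCoset σ y.2)) = 1)
    filter_upwards [eventually_opF_eq_one Λ l,
      eventually_coordAt_eq_base (D.levelIdeal_ne_bot S.F) y.2,
      eventually_coordAt_eq_base (D.levelIdeal_ne_bot S.F) (rationalMat g • galCoset σ y.2)]
      with u h1 h2 h3
    rw [h1, h2, h3, lKer_one, if_pos rfl]
  have hgood : ∀ w, S.underK w = S.underK w₀ → (S.m : 𝓞 S.F) ∉ w.asIdeal := fun w hw =>
    good_over hv ⟨w, hw⟩
  refine Classes.oddVal_nm_of_lKer hσ hne₀ (fun w hw => D.not_levelIdeal_le (hgood w hw)) hodd g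
    (y := y.2) fun w hw h0 => hne (finprod_eq_zero _ w ?_ hfin)
  rw [Setup.Level.LocalOps.opF, Λ.goodF w (hgood w hw), one_mul]
  exact h0

open Classical in
include Λ hl in
/-- **Parity on `K`.** -/
theorem oddVal_of_kerK {h : InfinitePlace S.F → H3 → H3 → ℂ}
    {w₁ : InfinitePlace S.K → InfinitePlace S.F} {v : HeightOneSpectrum (𝓞 S.K)}
    (hv : (S.m : 𝓞 S.K) ∉ v.asIdeal) (hodd : Odd (l.countP fun w => S.underK w = v))
    {γ : PGL(2, S.K)} {y : YSpace (D.levelIdeal S.K)}
    (hne : yKer (S.slotKer σ w₁ h) (D.levelOpK * (l.map D.bcOp).prod) y (γ • y) ≠ 0) :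
    OddVal v γ := by
  obtain ⟨g, rfl⟩ := Matrix.ProjGenLinGroup.mk_surjective γ
  replace hne : finKer (D.levelOpK * (l.map D.bcOp).prod) y.2 (rationalMat g • y.2) ≠ 0 := by
    rw [mk_smul] at hne
    exact right_ne_zero_of_mul hne
  rw [Λ.finKer_levelOpK l hl] at hne
  have hfin : (Function.mulSupport fun u => lKer (Λ.opK l u) (coordAt u y.2)
      (coordAt u (rationalMat g • y.2))).Finite := by
    refine eventually_cofinite.mp (?_ : ∀ᶠ u in cofinite, lKer (Λ.opK l u) (coordAt u y.2)
      (coordAt u (rationalMat g • y.2)) = 1)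
    filter_upwards [eventually_opK_eq_one Λ l,
      eventually_coordAt_eq_base (D.levelIdeal_ne_bot S.K) y.2,
      eventually_coordAt_eq_base (D.levelIdeal_ne_bot S.K) (rationalMat g • y.2)] with u h1 h2 h3
    rw [h1, h2, h3, lKer_one, if_pos rfl]
  refine Classes.oddVal_of_lKer (D.not_levelIdeal_le hv) hodd g
    (y := y.2) fun h0 => hne (finprod_eq_zero _ v ?_ hfin)
  rw [Setup.Level.LocalOps.opK, Λ.goodK v hv, one_mul]
  convert h0 using 4
  rw [List.count, List.countP_map]
  exact List.countP_congr fun u _ => by simp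

open Classical in
/-- The place of `F` over a place of `K` with residue fields of degree one moves. -/
theorem Setup.exists_moved_over (hσ : S.IsGalGen σ) {v : HeightOneSpectrum (𝓞 S.K)}
    (hv : (S.m : 𝓞 S.K) ∉ v.asIdeal)
    (hdeg : ∀ w, S.underK w = v → Ideal.absNorm w.asIdeal = Ideal.absNorm v.asIdeal) :
    ∃ w₀ : HeightOneSpectrum (𝓞 S.F), S.underK w₀ = v ∧ galPlace σ w₀ ≠ w₀ := by
  obtain ⟨w₀, rfl⟩ := S.exists_place_over v
  exact ⟨w₀, rfl, Classes.moved_of_absNorm_eq hσ (fun h => hv ((S.natCast_mem_underK w₀ _).mpr h))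
    (hdeg w₀ rfl)⟩

/-- The twisted classes with norm of odd valuation. -/
theorem Setup.exists_classSys_twisted (hσ : S.IsGalGen σ) (w : HeightOneSpectrum (𝓞 S.F)) :
    ∃ C : ClassSys (pGal σ) {γ | OddVal w (nm (pGal σ) γ)} (Classes.NCls σ (S.underK w)),
      C.rep = Classes.NCls.delta := by
  obtain ⟨e, he⟩ := Classes.exists_twistedEquiv hσ w
  exact ⟨⟨Classes.NCls.delta, e, fun c η => he c η⟩, rfl⟩

end FermatAgent.LTG

end
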