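import Fermat.Agent.LT.General.Classes.Hasse
import Fermat.Agent.LT.General.Classes.Parity
import Fermat.Agent.LT.General.Geom.OrbitSum
import Fermat.Agent.LT.General.Geom.Local.Statements
import Fermat.Agent.LT.General.Geom.Parity

set_option autoImplicit false

/-!
# The classes which are not norms have an empty kernel at some place, general setup
-/

noncomputable section

open NumberField IsDedekindDomain WithZero Filter
open scoped MatrixGroups

namespace FermatAgent.LTG

open FermatAgent.LT (galPlace LCos GLv loc locMat valued_loc lKer lKer_one locLevel Cosets finKer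
  rationalMat coordAt coordAt_smul compAt_rationalMat eventually_coordAt_eq_base)
open FermatAgent.LT.TF (nm)
open FermatAgent.LT.Classes (pGal OddVal pRatio pRatio_mk ratioGL)

variable {S : Setup} {D : S.Level} {σ : S.F ≃+* S.F} (hσ : S.IsGalGen σ) (Λ : D.LocalOps σ)
  (l : List (HeightOneSpectrum (𝓞 S.F)))
  (hl : ∀ w ∈ l, (S.m : 𝓞 S.F) ∉ w.asIdeal ∧
    Ideal.absNorm w.asIdeal = Ideal.absNorm (S.underK w).asIdeal)
  {t : GL (Fin 2) S.K}

include hσ hl in
/-- At a good inert place the kernel is supported on the classes with integral invariant. -/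
theorem bK_eq_zero_of_inert {v : HeightOneSpectrum (𝓞 S.K)} (hv : (S.m : 𝓞 S.K) ∉ v.asIdeal)
    (hin : ∀ w : S.OverK v, galPlace σ w.1 = w.1)
    (hr : 1 < v.valuation S.K (pRatio (Matrix.ProjGenLinGroup.mk t)))
    (y : LCos (D.levelIdeal S.K) v) : Λ.bK l t v y = 0 := by
  classical
  have hcount : (l.map S.underK).count v = 0 := List.count_eq_zero.mpr fun h => by
    obtain ⟨w, hw, rfl⟩ := List.mem_map.mp h
    exact Classes.moved_of_absNorm_eq hσ (hl w hw).1 (hl w hw).2 (hin ⟨w, rfl⟩)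
  rw [Setup.Level.LocalOps.bK, Setup.Level.LocalOps.opK, Λ.goodK v hv, hcount, pow_zero, one_mul,
    lKer_one, if_neg]
  intro h
  obtain ⟨x, rfl⟩ := QuotientGroup.mk_surjective y
  rw [MulAction.Quotient.smul_coe, smul_eq_mul] at h
  obtain ⟨c, hc1, hc2⟩ := isUnitElt_of_conj_level (𝔫 := D.levelIdeal S.K) (y := x)
    (g := locMat v t) (by rw [mul_assoc]; exact QuotientGroup.eq.mp h)
  have htr : ((locMat v t : GLv v) : Matrix (Fin 2) (Fin 2) (v.adicCompletion S.K)).trace =
      loc v (t : Matrix (Fin 2) (Fin 2) S.K).trace :=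
    (AddMonoidHom.map_trace (loc v).toAddMonoidHom (t : Matrix (Fin 2) (Fin 2) S.K)).symm
  have hdet : ((locMat v t : GLv v) : Matrix (Fin 2) (Fin 2) (v.adicCompletion S.K)).det =
      loc v (t : Matrix (Fin 2) (Fin 2) S.K).det :=
    ((loc v).map_det (t : Matrix (Fin 2) (Fin 2) S.K)).symm
  rw [htr, map_mul, valued_loc] at hc2
  rw [hdet, map_mul, map_pow, valued_loc] at hc1
  rw [pRatio_mk, ratioGL, map_div₀, map_pow,
    one_lt_div₀ (zero_lt_iff.mpr ((_root_.map_ne_zero _).mpr t.det_ne_zero))] at hr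
  refine not_le_of_gt hr ?_
  have hc0 : 0 < Valued.v c ^ 2 := zero_lt_iff.mpr (left_ne_zero_of_mul_eq_one hc1)
  refine le_of_mul_le_mul_left ?_ hc0
  rw [← mul_pow, hc1]
  exact pow_le_one₀ zero_le hc2

include hσ hl in
/-- **A class which is not a norm has an empty kernel at some place.** -/
theorem exists_place_of_not_norm (M : Setup.Level.FixedMatch Λ hσ)
    {v₀ : HeightOneSpectrum (𝓞 S.K)}
    (hodd : OddVal v₀ (Matrix.ProjGenLinGroup.mk t))
    (hno : ¬ ∃ δ : PGL(2, S.F),
      nm (pGal σ) δ = Classes.pIncl S (Matrix.ProjGenLinGroup.mk t)) :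
    ∃ v₁ : HeightOneSpectrum (𝓞 S.K), ∀ y, Λ.bK l t v₁ y = 0 := by
  by_contra hex
  push Not at hex
  apply hno
  refine Classes.exists_nm_of_local hσ hodd (fun u hu hu' hlt => ?_) fun v hv hf => ?_
  · obtain ⟨y, hy⟩ := hex (S.underK u)
    refine absurd (bK_eq_zero_of_inert hσ Λ l hl (good_underK hu) (fun u' => ?_) hlt y) hy
    rw [eq_of_galPlace_fixed hσ hu' u'.2]
    exact hu'
  · obtain ⟨y, hy⟩ := hex v
    rw [bK_eq_base Λ l hl hv] at hy
    exact M.nonnorm v hv hf t y hy

include hσ hl in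
/-- **The kernel of a class which is not a norm vanishes identically.** -/
theorem finKer_eq_zero_of_not_norm (M : Setup.Level.FixedMatch Λ hσ)
    {v₀ : HeightOneSpectrum (𝓞 S.K)}
    (hodd : OddVal v₀ (Matrix.ProjGenLinGroup.mk t))
    (hno : ¬ ∃ δ : PGL(2, S.F),
      nm (pGal σ) δ = Classes.pIncl S (Matrix.ProjGenLinGroup.mk t))
    (y : Cosets (D.levelIdeal S.K)) :
    finKer (D.levelOpK * (l.map D.bcOp).prod) y (rationalMat t • y) = 0 := by
  obtain ⟨v₁, hv₁⟩ := exists_place_of_not_norm hσ Λ l hl M hodd hno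
  rw [Λ.finKer_levelOpK l fun w hw => (hl w hw).1]
  refine finprod_eq_zero _ v₁ ?_ ?_
  · rw [coordAt_smul, compAt_rationalMat]
    exact hv₁ (coordAt v₁ y)
  · refine eventually_cofinite.mp (?_ : ∀ᶠ u in cofinite, lKer (Λ.opK l u) (coordAt u y)
      (coordAt u (rationalMat t • y)) = 1)
    filter_upwards [eventually_opK_eq_one Λ l,
      eventually_coordAt_eq_base (D.levelIdeal_ne_bot S.K) y,
      eventually_coordAt_eq_base (D.levelIdeal_ne_bot S.K) (rationalMat t • y)] with u h1 h2 h3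
    rw [h1, h2, h3, lKer_one, if_pos rfl]

end FermatAgent.LTG

end
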