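import Mathlib
import Fermat.Agent.LT.General.Geom.Infinity
import Fermat.Agent.LT.Descent.Kernel.Conv

set_option autoImplicit false

/-!
# The product of the three kernels does not depend on the first place

The convolution is commutative and associative on invariant kernels, so starting from another of
the three places over the place of `K` gives the same slot kernel.
-/

noncomputable section

open MeasureTheory NumberField
open scoped MatrixGroups

namespace FermatAgent.LTG

open FermatAgent.LT (H3)

variable {S : Setup} {σ : S.F ≃+* S.F} {w₁ : InfinitePlace S.K → InfinitePlace S.F}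
  {h : InfinitePlace S.F → H3 → H3 → ℂ}

theorem kConv_rotate {a b c : H3 → H3 → ℂ} (ha : LT.H3.IsInvKer a) (hb : LT.H3.IsInvKer b)
    (hc : LT.H3.IsInvKer c) :
    LT.H3.kConv (LT.H3.kConv b c) a = LT.H3.kConv (LT.H3.kConv a b) c := by
  rw [LT.H3.kConv_comm (hb.kConv hc) ha, ← LT.H3.kConv_assoc ha hb hc]

/-- **Any place of `F` may be the first one.** -/
theorem Setup.slotKer_eq_of_place (hσ : S.IsGalGen σ) (hh : ∀ w, LT.H3.IsInvKer (h w))
    (u : InfinitePlace S.F) :
    S.slotKer σ (fun _ => u) h default = S.slotKer σ w₁ h default := by
  set w := w₁ default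
  set A : InfinitePlace S.F → InfinitePlace S.F := fun v => v.comap σ.toRingHom with hA
  have h3 : ∀ v, A (A (A v)) = v := fun v => by
    simp only [hA, ← InfinitePlace.comap_comp]
    rw [show (σ.toRingHom.comp σ.toRingHom).comp σ.toRingHom = RingHom.id S.F from
      RingHom.ext fun x => hσ.cube x]
    exact Subtype.ext (AbsoluteValue.ext fun x => rfl)
  have hs : ∀ v, S.slotKer σ (fun _ => v) h default =
      LT.H3.kConv (LT.H3.kConv (h v) (h (A v))) (h (A (A v))) := fun v => rfl
  have hrot : ∀ v, S.slotKer σ (fun _ => A v) h default = S.slotKer σ (fun _ => v) h default :=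
    fun v => by rw [hs, hs, h3]; exact kConv_rotate (hh _) (hh _) (hh _)
  show _ = S.slotKer σ (fun _ => w) h default
  rcases Setup.infinitePlace_orbit S hσ w u (Subsingleton.elim _ _) with e | e | e <;> subst e
  · rfl
  · exact hrot w
  · exact (hrot (A w)).trans (hrot w)

end FermatAgent.LTG

end
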