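import Mathlib
import Fermat.Agent.LT.Descent.Geom.SplitGen

set_option autoImplicit false

/-!
# The parts of an integral against the length of the window
-/

noncomputable section

open MeasureTheory NumberField IsDedekindDomain Filter
open scoped MatrixGroups ENNReal

namespace FermatAgent.LTG

open FermatAgent.LT (YSpace yVol Cosets countable_cosets coordAt partInf partCos lowP lowP_eq
  measurable_partInf partFin_nonneg partInf_nonneg eventually_partCos)

variable {L : Type*} [Field L] [NumberField L] {𝔫 : Ideal (𝓞 L)}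

/-- **The integral against the length of the window, part by part.** -/
theorem integral_parts_all (h𝔫 : 𝔫 ≠ ⊥) {E : YSpace 𝔫 → ℂ} (hE : Measurable E) {ℓ : ℝ} (hℓ : 0 < ℓ)
    (hint : Integrable (fun y => E y * ((2 * ℓ - lowP y : ℝ) : ℂ)) (yVol 𝔫)) :
    Integrable E (yVol 𝔫) ∧
      (∀ w : InfinitePlace L, Integrable (fun y => E y * (partInf (y.1 w) : ℂ)) (yVol 𝔫)) ∧
      (∀ v, Integrable (fun y => E y * (partCos v (coordAt v y.2) : ℂ)) (yVol 𝔫)) ∧
      (Summable fun v => ∫ y, E y * (partCos v (coordAt v y.2) : ℂ) ∂(yVol 𝔫)) ∧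
      ∫ y, E y * ((2 * ℓ - lowP y : ℝ) : ℂ) ∂(yVol 𝔫) =
        ((2 * ℓ : ℝ) : ℂ) * ∫ y, E y ∂(yVol 𝔫) +
          ∑ w, ∫ y, E y * (partInf (y.1 w) : ℂ) ∂(yVol 𝔫) +
          ∑' v, ∫ y, E y * (partCos v (coordAt v y.2) : ℂ) ∂(yVol 𝔫) := by
  have : Countable (Cosets 𝔫) := countable_cosets h𝔫
  have : Countable (Ideal (𝓞 L)) := by
    rw [← Set.countable_univ_iff]
    refine (Set.countable_iUnion fun n : ℕ =>
      (Ideal.finite_setOfPred_absNorm_eq (S := 𝓞 L) n).countable).mono fun I _ => ?_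
    exact Set.mem_iUnion.mpr ⟨Ideal.absNorm I, rfl⟩
  have : Countable (HeightOneSpectrum (𝓞 L)) := Function.Injective.countable (f := fun P : HeightOneSpectrum (𝓞 L) => P.asIdeal) fun P Q h => HeightOneSpectrum.ext h
  set q : HeightOneSpectrum (𝓞 L) → YSpace 𝔫 → ℝ := fun v y => partCos v (coordAt v y.2)
  set p : InfinitePlace L → YSpace 𝔫 → ℝ := fun w y => partInf (y.1 w)
  have hqm : ∀ v, Measurable (q v) := fun v =>
    (measurable_of_countable fun c : Cosets 𝔫 => partCos v (coordAt v c)).comp measurable_snd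
  have hpm : ∀ w, Measurable (p w) := fun w =>
    measurable_partInf.comp ((measurable_pi_apply w).comp measurable_fst)
  have hq0 : ∀ v y, 0 ≤ q v y := fun v y => partFin_nonneg _ _
  have hp0 : ∀ w y, 0 ≤ p w y := fun w y => partInf_nonneg _
  have hqf : ∀ y, (Function.support fun v => q v y).Finite := fun y =>
    eventually_cofinite.mp (eventually_partCos h𝔫 y.2)
  have hL : ∀ y, 2 * ℓ - lowP y = 2 * ℓ + ∑ w, p w y + ∑ᶠ v, q v y := fun y => by
    have := lowP_eq h𝔫 y
    simp only [p, q]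
    linarith
  have hdom : ∀ (r : YSpace 𝔫 → ℝ), Measurable r → (∀ y, |r y| ≤ 2 * ℓ - lowP y) →
      Integrable (fun y => E y * (r y : ℂ)) (yVol 𝔫) := fun r hr hle =>
    hint.mono (hE.mul (Complex.measurable_ofReal.comp hr)).aestronglyMeasurable
      (Eventually.of_forall fun y => by
        rw [norm_mul, norm_mul, Complex.norm_real, Complex.norm_real, Real.norm_eq_abs,
          Real.norm_eq_abs]
        exact mul_le_mul_of_nonneg_left ((hle y).trans (le_abs_self _)) (norm_nonneg _))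
  have hsum0 : ∀ y, 0 ≤ ∑ w, p w y := fun y => Finset.sum_nonneg fun w _ => hp0 w y
  have hfs0 : ∀ y, 0 ≤ ∑ᶠ v, q v y := fun y => finsum_nonneg fun v => hq0 v y
  have hqle : ∀ v y, q v y ≤ ∑ᶠ u, q u y := fun v y =>
    single_le_finsum v (hqf y) fun u => hq0 u y
  have hEi : Integrable E (yVol 𝔫) := by
    refine ((hdom (fun _ => 2 * ℓ) measurable_const fun y => ?_).const_mul ((2 * ℓ : ℝ) : ℂ)⁻¹).congr
      (Eventually.of_forall fun y => ?_)
    · rw [abs_of_pos (by linarith), hL]
      linarith [hsum0 y, hfs0 y]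
    · have : ((2 * ℓ : ℝ) : ℂ) ≠ 0 := by exact_mod_cast (by linarith : (2 * ℓ : ℝ) ≠ 0)
      dsimp only
      field_simp
  have hpi : ∀ w, Integrable (fun y => E y * (p w y : ℂ)) (yVol 𝔫) := fun w =>
    hdom _ (hpm w) fun y => by
      rw [abs_of_nonneg (hp0 w y), hL]
      linarith [Finset.single_le_sum (f := fun u => p u y) (fun u _ => hp0 u y) (Finset.mem_univ w),
        hfs0 y]
  have hqi : ∀ v, Integrable (fun y => E y * (q v y : ℂ)) (yVol 𝔫) := fun v =>
    hdom _ (hqm v) fun y => by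
      rw [abs_of_nonneg (hq0 v y), hL]
      linarith [hsum0 y, hqle v y]
  have hts : ∀ y, ∑ᶠ v, q v y = ∑' v, q v y := fun y => (tsum_eq_finsum (hqf y)).symm
  have hsumm : ∀ y, Summable fun v => q v y := fun y => summable_of_hasFiniteSupport (hqf y)
  have hbound : ∑' v, ∫⁻ y, ‖E y * (q v y : ℂ)‖ₑ ∂(yVol 𝔫) ≠ ⊤ := by
    rw [← lintegral_tsum (f := fun v y => ‖E y * (q v y : ℂ)‖ₑ) fun v =>
      (hE.mul (Complex.measurable_ofReal.comp (hqm v))).enorm.aemeasurable]
    refine ne_top_of_le_ne_top hint.2.ne (lintegral_mono fun y => ?_)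
    simp only [enorm_mul]
    rw [ENNReal.tsum_mul_left]
    refine mul_le_mul_right ?_ _
    simp only [← ofReal_norm, Complex.norm_real, Real.norm_eq_abs, abs_of_nonneg (hq0 _ y)]
    rw [← ENNReal.ofReal_tsum_of_nonneg (fun v => hq0 v y) (hsumm y), ← hts y]
    exact ENNReal.ofReal_le_ofReal ((le_add_of_nonneg_left (by linarith [hsum0 y])).trans
      ((hL y).symm.le.trans (le_abs_self _)))
  refine ⟨hEi, hpi, hqi, ?_, ?_⟩
  · refine Summable.of_norm_bounded (ENNReal.summable_toReal hbound) fun v => ?_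
    refine (norm_integral_le_lintegral_norm _).trans (le_of_eq ?_)
    simp only [ofReal_norm, q]
  have e : (fun y => E y * ((2 * ℓ - lowP y : ℝ) : ℂ)) = fun y =>
      (((2 * ℓ : ℝ) : ℂ) * E y + ∑ w, E y * (p w y : ℂ)) + ∑' v, E y * (q v y : ℂ) := funext fun y => by
    rw [hL, hts, tsum_mul_left, ← Complex.ofReal_tsum, ← Finset.mul_sum]
    push_cast
    ring
  have h2 : Integrable (fun y => ∑ w, E y * (p w y : ℂ)) (yVol 𝔫) := integrable_finsetSum _ fun w _ => hpi w
  have h1 : Integrable (fun y => ((2 * ℓ : ℝ) : ℂ) * E y + ∑ w, E y * (p w y : ℂ)) (yVol 𝔫) :=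
    (hEi.const_mul _).add h2
  have h3 : Integrable (fun y => ∑' v, E y * (q v y : ℂ)) (yVol 𝔫) := by
    refine (hdom (fun y => ∑' v, q v y) (Measurable.tsum fun v => hqm v) fun y => ?_).congr
      (Eventually.of_forall fun y => ?_)
    · rw [← hts y, abs_of_nonneg (hfs0 y), hL]
      linarith [hsum0 y]
    · dsimp only
      rw [tsum_mul_left, Complex.ofReal_tsum]
  rw [e, integral_add h1 h3, integral_add (hEi.const_mul _) h2, integral_const_mul,
    integral_finsetSum _ fun w _ => hpi w, integral_tsum (fun v => (hqi v).1) hbound]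

end FermatAgent.LTG

end
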