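import Mathlib
import Fermat.Agent.LT.General.Geom.ZWeight
import Fermat.Agent.LT.Descent.Geom.FibreInt

set_option autoImplicit false

/-!
# Integrals over the fibres of the orbit classes, general input

A twisted term of `F` integrated against a function of the point of the first place and of the orbit
classes is a constant times the orbital sum times the integral of the convolution; the plain term
of `K` is the same without the constant.
-/

noncomputable section

open MeasureTheory NumberField IsDedekindDomain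
open scoped MatrixGroups ENNReal

namespace FermatAgent.LTG

open FermatAgent.LT (H3 XInf ptEmb infAct galX prodKer YSpace yVol yKer galY galCoset Cosets coordAt
  rationalMat mk_smul finKer heckeWord countable_cosets integral_fibre)

variable {S : Setup} {σ : S.F ≃+* S.F} (hσ : S.IsGalGen σ) {t : GL (Fin 2) S.K}
  {δ : GL (Fin 2) S.F} {w₁ : InfinitePlace S.K → InfinitePlace S.F}
  (hw₁ : ∀ u, (w₁ u).comap S.inclKF.toRingHom = u)
  {D : S.Level} (Λ : D.LocalOps σ) (M : Setup.Level.FixedMatch Λ hσ)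
  (l : List (HeightOneSpectrum (𝓞 S.F))) (hl : S.GoodWord l)
  {h : InfinitePlace S.F → H3 → H3 → ℂ}

/-- The twisted term of `F`. -/
def Setup.Level.termF (D : S.Level) (l : List (HeightOneSpectrum (𝓞 S.F))) (h : InfinitePlace S.F → H3 → H3 → ℂ) (σ : S.F ≃+* S.F) (δ : GL (Fin 2) S.F)
    (y : YSpace (D.levelIdeal S.F)) : ℂ :=
  yKer h (D.levelOpF σ * heckeWord _ l) y (Matrix.ProjGenLinGroup.mk δ • galY σ y)

/-- The plain term of `K`. -/
def Setup.Level.termK (D : S.Level) (l : List (HeightOneSpectrum (𝓞 S.F))) (h : InfinitePlace S.F → H3 → H3 → ℂ) (σ : S.F ≃+* S.F)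
    (w₁ : InfinitePlace S.K → InfinitePlace S.F) (t : GL (Fin 2) S.K)
    (y : YSpace (D.levelIdeal S.K)) : ℂ :=
  yKer (S.slotKer σ w₁ h) (D.levelOpK * (l.map D.bcOp).prod) y
    (Matrix.ProjGenLinGroup.mk t • y)

include hσ hw₁ hl M in
theorem Setup.Level.LocalOps.integral_termF (hh : ∀ w, H3.IsInvKer (h w)) (hn : S.IsNormPair σ t δ)
    {G : H3 × S.TOrb t → ℂ}
    (hint : Integrable (fun y => D.termF l h σ δ y * G (D.zF hσ hn.regular w₁ y))
      (yVol (D.levelIdeal S.F))) :
    ∫ y, D.termF l h σ δ y * G (D.zF hσ hn.regular w₁ y) ∂(yVol (D.levelIdeal S.F)) =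
      (cfin Λ M * Λ.orbK l (hσ := hσ) hn.regular) *
        ∑' a, ∫ P, S.slotKer σ w₁ h default P (Matrix.GeneralLinearGroup.map S.emb t • P) *
          G (P, a) ∂H3.vol := by
  have : Countable (Cosets (D.levelIdeal S.F)) := countable_cosets (D.levelIdeal_ne_bot S.F)
  set A : XInf S.F → ℂ := fun x => prodKer h x (infAct δ (galX σ x))
  set B : Cosets (D.levelIdeal S.F) → ℂ := fun c =>
    finKer (D.levelOpF σ * heckeWord _ l) c (rationalMat δ • galCoset σ c)
  have e : ∀ y : YSpace (D.levelIdeal S.F), D.termF l h σ δ y * G (D.zF hσ hn.regular w₁ y) =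
      A y.1 * B y.2 * G (ptEmb y.1 (S.phi0 w₁), D.orbitOfF hσ hn.regular y.2) := by
    rintro ⟨x, c⟩
    rw [Setup.Level.termF, galY, mk_smul]
    rfl
  simp only [e] at hint ⊢
  have hfib : ∀ a : S.TOrb t, ({c | D.orbitOfF hσ hn.regular c = a} ∩ Function.support B).Finite ∧
      ∑ᶠ c ∈ {c | D.orbitOfF hσ hn.regular c = a}, B c = (cfin Λ M * Λ.orbK l (hσ := hσ) hn.regular) := fun a => by
    have h1 := Λ.finsum_fibre_F l hl M hn a.1 a.2
    have e' : {c | D.orbitOfF hσ hn.regular c = a} =
        {c | ∀ v, (D.phiF hσ hn.regular v).toFun (D.coordF v c) = a.1 v} := by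
      ext c; exact ⟨fun h v => congrFun (congrArg Subtype.val h) v, fun h => Subtype.ext (funext h)⟩
    rw [e']
    exact h1
  have hF := integral_fibre (Measure.pi fun _ : InfinitePlace S.F => H3.vol)
    (fun x => ptEmb x (S.phi0 w₁)) (D.orbitOfF hσ hn.regular) B A G _ hfib hint
  refine hF.2.trans ?_
  rcases eq_or_ne ((cfin Λ M * Λ.orbK l (hσ := hσ) hn.regular)) 0 with hO | hO
  · rw [hO, zero_mul, zero_mul]
  · congr 1
    exact tsum_congr fun a =>
      Setup.integral_infinity hσ hw₁ hh hn.norm (g := fun P => G (P, a)) (hF.1 hO a)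

include hσ hl in
theorem Setup.Level.LocalOps.integral_termK
    (ht : (t : Matrix (Fin 2) (Fin 2) S.K).trace ^ 2 ≠ 4 * (t : Matrix (Fin 2) (Fin 2) S.K).det)
    {G : H3 × S.TOrb t → ℂ}
    (hint : Integrable (fun y => D.termK l h σ w₁ t y * G (D.zK hσ ht y)) (yVol (D.levelIdeal S.K))) :
    ∫ y, D.termK l h σ w₁ t y * G (D.zK hσ ht y) ∂(yVol (D.levelIdeal S.K)) =
      Λ.orbK l (hσ := hσ) ht *
        ∑' a, ∫ P, S.slotKer σ w₁ h default P (Matrix.GeneralLinearGroup.map S.emb t • P) *
          G (P, a) ∂H3.vol := by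
  have : Countable (Cosets (D.levelIdeal S.K)) := countable_cosets (D.levelIdeal_ne_bot S.K)
  set A : H3 → ℂ := fun P =>
    S.slotKer σ w₁ h default P (Matrix.GeneralLinearGroup.map S.emb t • P)
  set B : Cosets (D.levelIdeal S.K) → ℂ := fun c =>
    finKer (D.levelOpK * (l.map D.bcOp).prod) c (rationalMat t • c)
  have e : ∀ y : YSpace (D.levelIdeal S.K), D.termK l h σ w₁ t y * G (D.zK hσ ht y) =
      A (y.1 default) * B y.2 * G (y.1 default, D.orbitOfK hσ ht y.2) := by
    rintro ⟨x, c⟩
    rw [Setup.Level.termK, mk_smul]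
    show (∏ u, S.slotKer σ w₁ h u (x u) (infAct t x u)) * _ * _ = _
    rw [Fintype.prod_unique]
    rfl
  simp only [e] at hint ⊢
  have hfib : ∀ a : S.TOrb t, ({c | D.orbitOfK hσ ht c = a} ∩ Function.support B).Finite ∧
      ∑ᶠ c ∈ {c | D.orbitOfK hσ ht c = a}, B c = Λ.orbK l (hσ := hσ) ht := fun a => by
    have h1 := Λ.finsum_fibre_K l hl (hσ := hσ) ht a.1 a.2
    have e' : {c | D.orbitOfK hσ ht c = a} =
        {c | ∀ v, (D.phiK hσ ht v).toFun (coordAt v c) = a.1 v} := by
      ext c; exact ⟨fun h v => congrFun (congrArg Subtype.val h) v, fun h => Subtype.ext (funext h)⟩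
    rw [e']
    exact h1
  refine (integral_fibre (Measure.pi fun _ : InfinitePlace S.K => H3.vol)
    (fun x => x default) (D.orbitOfK hσ ht) B (fun x => A (x default)) G _ hfib hint).2.trans ?_
  congr 1
  exact tsum_congr fun a => S.measurePreserving_point.integral_comp
    (MeasurableEquiv.funUnique (InfinitePlace S.K) H3).measurableEmbedding
    fun P => A P * G (P, a)

end FermatAgent.LTG

end
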