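import Mathlib
import Fermat.Agent.LT.General.Geom.OrbitSum
import Fermat.Agent.LT.General.Geom.Local.SplitBridge
import Fermat.Agent.LT.Descent.Geom.SplitFibre

set_option autoImplicit false

/-!
# Orbital sums carrying a part of the heights at one place, general input
-/

noncomputable section

open NumberField IsDedekindDomain Filter
open scoped MatrixGroups

namespace FermatAgent.LTG

open FermatAgent.LT (Cosets GLv LCos locMat coordAt eventually_coordAt_eq_base rationalMat galPlace
  galCoset finKer heckeWord finsum_fibre finprod_mul_single partCos partCos_mk partFin hLoc antiGL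
  map_antiGL)

variable {S : Setup} {D : S.Level} {σ : S.F ≃+* S.F} {hσ : S.IsGalGen σ} (Λ : D.LocalOps σ)
  {t : GL (Fin 2) S.K} {δ : GL (Fin 2) S.F}
  (l : List (HeightOneSpectrum (𝓞 S.F))) (hl : S.GoodWord l) (M : Setup.Level.FixedMatch Λ hσ)

variable (ht : (t : Matrix (Fin 2) (Fin 2) S.K).trace ^ 2 ≠ 4 * (t : Matrix (Fin 2) (Fin 2) S.K).det)

open Classical in
/-- The orbital sum carrying a function at one place. -/
def Setup.Level.LocalOps.orbMul (hσ : S.IsGalGen σ)
    (ht : (t : Matrix (Fin 2) (Fin 2) S.K).trace ^ 2 ≠ 4 * (t : Matrix (Fin 2) (Fin 2) S.K).det) (v₁ : HeightOneSpectrum (𝓞 S.K)) (p : LCos (D.levelIdeal S.K) v₁ → ℂ) : ℂ :=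
  ∏ᶠ v, if h : v = v₁ then ∑ᶠ y ∈ (D.phiK hσ ht v).fibre, Λ.bK l t v y * p (h ▸ y)
    else ∑ᶠ y ∈ (D.phiK hσ ht v).fibre, Λ.bK l t v y

include hl in
/-- Fibre sums on `K` carrying an invariant function at one place. -/
theorem Setup.Level.LocalOps.finsum_fibre_K_mul (v₁ : HeightOneSpectrum (𝓞 S.K))
    (p : LCos (D.levelIdeal S.K) v₁ → ℂ) (hp : ∀ g ∈ torusAt v₁ t, ∀ y, p (g • y) = p y)
    (a : ∀ v, torusAt v t ⧸ (torusU v t).subgroupOf (torusAt v t))
    (ha : ∀ᶠ v in cofinite, a v =
      ((1 : torusAt v t) : torusAt v t ⧸ (torusU v t).subgroupOf (torusAt v t))) :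
    ({c : Cosets (D.levelIdeal S.K) | ∀ v, (D.phiK hσ ht v).toFun (coordAt v c) = a v} ∩
        Function.support fun c => finKer (D.levelOpK * (l.map D.bcOp).prod) c
          (rationalMat t • c) * p (coordAt v₁ c)).Finite ∧
      ∑ᶠ c ∈ {c : Cosets (D.levelIdeal S.K) | ∀ v, (D.phiK hσ ht v).toFun (coordAt v c) = a v},
        finKer (D.levelOpK * (l.map D.bcOp).prod) c (rationalMat t • c) * p (coordAt v₁ c) =
          Λ.orbMul l hσ ht v₁ p := by
  classical
  set b : ∀ v, LCos (D.levelIdeal S.K) v → ℂ := fun v y =>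
    Λ.bK l t v y * if h : v = v₁ then p (h ▸ y) else 1 with hb
  have hprod : ∀ c : Cosets (D.levelIdeal S.K),
      finKer (D.levelOpK * (l.map D.bcOp).prod) c (rationalMat t • c) * p (coordAt v₁ c) =
        ∏ᶠ v, b v (coordAt v c) := fun c => by
    rw [Λ.finKer_plain l t (fun u hu => (hl u hu).1), ← finprod_mul_single _ v₁]
    · refine finprod_congr fun v => ?_
      simp only [b]
      split_ifs with h
      · subst h; rfl
      · rfl
    · refine eventually_cofinite.mp (?_ : ∀ᶠ v in cofinite, _)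
      filter_upwards [(Λ.eventually_bK_base l t),
        eventually_coordAt_eq_base (D.levelIdeal_ne_bot S.K) c] with v hv hc
      rw [show coordAt v c = D.baseXK v from hc]
      exact hv.1
  simp only [hprod]
  have hsupp : ∀ v, ((D.phiK hσ ht v).fibre ∩ Function.support (b v)).Finite := fun v =>
    (finite_supp_bK ht Λ l v (D.isFundSet_phiK hσ ht v)).subset fun y hy =>
      ⟨hy.1, fun h => hy.2 (by simp only [b]; rw [h, zero_mul])⟩
  have h := finsum_fibre (fun (c : Cosets (D.levelIdeal S.K)) v => coordAt v c) D.coordK_injective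
    D.exists_coordK_eq (eventually_coordAt_eq_base (D.levelIdeal_ne_bot S.K)) (D.phiK hσ ht) b
    (fun v g hg y => by
      simp only [b]
      rw [Λ.bK_smul l hl t v hg]
      split_ifs with h
      · subst h; rw [hp g hg]
      · rfl)
    hsupp ((Λ.eventually_phiK l (hσ := hσ) ht).and (Set.finite_singleton v₁).compl_mem_cofinite |>.mono
      fun v hv => ⟨by simp only [b]; rw [dif_neg (show v ≠ v₁ from hv.2), mul_one]; exact hv.1.1,
        fun y hy hne => by simp only [b]; rw [hv.1.2 y hy hne, zero_mul]⟩) a ha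
  refine ⟨h.1, h.2.trans (finprod_congr fun v => ?_)⟩
  simp only [b]
  split_ifs with h
  · rfl
  · simp only [mul_one]

include hl M in
open Classical in
/-- Fibre sums on `F` carrying an invariant function at one slot. -/
theorem Setup.Level.LocalOps.finsum_fibre_F_mul (hn : S.IsNormPair σ t δ) {v₁ : HeightOneSpectrum (𝓞 S.K)}
    (w : S.OverK v₁)
    (f : LCos (D.levelIdeal S.F) w.1 → ℂ) (hf : ∀ g ∈ torusAt v₁ t, ∀ x : D.XF v₁, f ((g • x) w) = f (x w))
    (a : ∀ v, torusAt v t ⧸ (torusU v t).subgroupOf (torusAt v t))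
    (ha : ∀ᶠ v in cofinite, a v =
      ((1 : torusAt v t) : torusAt v t ⧸ (torusU v t).subgroupOf (torusAt v t))) :
    ({c : Cosets (D.levelIdeal S.F) | ∀ v, (D.phiF hσ hn.regular v).toFun (D.coordF v c) = a v} ∩
        Function.support fun c => finKer (D.levelOpF σ * heckeWord _ l) c
          (rationalMat δ • galCoset σ c) * f (coordAt w.1 c)).Finite ∧
      ∑ᶠ c ∈ {c : Cosets (D.levelIdeal S.F) | ∀ v, (D.phiF hσ hn.regular v).toFun (D.coordF v c) = a v},
        finKer (D.levelOpF σ * heckeWord _ l) c (rationalMat δ • galCoset σ c) * f (coordAt w.1 c) =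
          ∏ᶠ v, if h : v = v₁
            then ∑ᶠ x ∈ (D.phiF hσ hn.regular v).fibre, Λ.bF l hσ δ v x * f ((h ▸ x : D.XF v₁) w)
            else cfac Λ M v * ∑ᶠ y ∈ (D.phiK hσ hn.regular v).fibre, Λ.bK l t v y := by
  classical
  set b : ∀ v, D.XF v → ℂ := fun v x =>
    Λ.bF l hσ δ v x * if h : v = v₁ then f ((h ▸ x : D.XF v₁) w) else 1 with hb
  have hprod : ∀ c : Cosets (D.levelIdeal S.F),
      finKer (D.levelOpF σ * heckeWord _ l) c (rationalMat δ • galCoset σ c) * f (coordAt w.1 c) =
        ∏ᶠ v, b v (D.coordF v c) := fun c => by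
    rw [Λ.finKer_twist l hσ δ (fun u hu => (hl u hu).1), ← finprod_mul_single _ v₁]
    · refine finprod_congr fun v => ?_
      simp only [b]
      split_ifs with h
      · subst h; rfl
      · rfl
    · refine eventually_cofinite.mp (?_ : ∀ᶠ v in cofinite, _)
      filter_upwards [(Λ.eventually_bF_base l hσ δ), D.eventually_coordF c] with v hv hc
      rw [hc]
      exact hv.1
  simp only [hprod]
  have hlm := fun v => local_matching Λ l hl M hn v (D.isFundSet_phiF hσ hn.regular v)
    (D.isFundSet_phiK hσ hn.regular v)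
  have hsupp : ∀ v, ((D.phiF hσ hn.regular v).fibre ∩ Function.support (b v)).Finite := fun v =>
    (hlm v).1.subset fun x hx => ⟨hx.1, fun h => hx.2 (by simp only [b]; rw [h, zero_mul])⟩
  have h := finsum_fibre (fun (c : Cosets (D.levelIdeal S.F)) v => D.coordF v c) D.coordF_injective
    D.exists_coordF_eq D.eventually_coordF (D.phiF hσ hn.regular) b
    (fun v g hg x => by
      simp only [b]
      rw [Λ.bF_smul l hl hn v hg]
      split_ifs with h
      · subst h; exact congrArg _ (hf g hg x)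
      · rfl)
    hsupp ((Λ.eventually_phiF l hl M hn).and (Set.finite_singleton v₁).compl_mem_cofinite |>.mono
      fun v hv => ⟨by simp only [b]; rw [dif_neg (show v ≠ v₁ from hv.2), mul_one]; exact hv.1.1,
        fun y hy hne => by simp only [b]; rw [hv.1.2 y hy hne, zero_mul]⟩) a ha
  refine ⟨h.1, h.2.trans (finprod_congr fun v => ?_)⟩
  simp only [b]
  split_ifs with h
  · rfl
  · simp only [mul_one]
    exact (hlm v).2

open Classical in
include hl M in
/-- A multiple of the weighted sum at one place gives the same multiple of the whole sum. -/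
theorem Setup.Level.LocalOps.finsum_fibre_F_one (hn : S.IsNormPair σ t δ)
    {v₁ : HeightOneSpectrum (𝓞 S.K)} (w : S.OverK v₁)
    (f : LCos (D.levelIdeal S.F) w.1 → ℂ)
    (hf : ∀ g ∈ torusAt v₁ t, ∀ x : D.XF v₁, f ((g • x) w) = f (x w))
    {e : ℂ} {p : LCos (D.levelIdeal S.K) v₁ → ℂ}
    (he : ∑ᶠ x ∈ (D.phiF hσ hn.regular v₁).fibre, Λ.bF l hσ δ v₁ x * f (x w) =
      e * cfac Λ M v₁ * ∑ᶠ y ∈ (D.phiK hσ hn.regular v₁).fibre, Λ.bK l t v₁ y * p y)
    (a : ∀ v, torusAt v t ⧸ (torusU v t).subgroupOf (torusAt v t))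
    (ha : ∀ᶠ v in cofinite, a v =
      ((1 : torusAt v t) : torusAt v t ⧸ (torusU v t).subgroupOf (torusAt v t))) :
    ({c : Cosets (D.levelIdeal S.F) | ∀ v, (D.phiF hσ hn.regular v).toFun (D.coordF v c) = a v} ∩
        Function.support fun c => finKer (D.levelOpF σ * heckeWord _ l) c
          (rationalMat δ • galCoset σ c) * f (coordAt w.1 c)).Finite ∧
      ∑ᶠ c ∈ {c : Cosets (D.levelIdeal S.F) | ∀ v, (D.phiF hσ hn.regular v).toFun (D.coordF v c) = a v},
        finKer (D.levelOpF σ * heckeWord _ l) c (rationalMat δ • galCoset σ c) * f (coordAt w.1 c) =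
          e * cfin Λ M * Λ.orbMul l hσ hn.regular v₁ p := by
  obtain ⟨h1, h2⟩ := Λ.finsum_fibre_F_mul l hl M hn w f hf a ha
  refine ⟨h1, h2.trans ?_⟩
  set G : HeightOneSpectrum (𝓞 S.K) → ℂ := fun v =>
    if h : v = v₁ then ∑ᶠ y ∈ (D.phiK hσ hn.regular v).fibre, Λ.bK l t v y * p (h ▸ y)
      else ∑ᶠ y ∈ (D.phiK hσ hn.regular v).fibre, Λ.bK l t v y with hG
  have hGf : (Function.mulSupport G).Finite := by
    refine eventually_cofinite.mp (?_ : ∀ᶠ v in cofinite, G v = 1)
    filter_upwards [finsum_fibre_bK_eq_one Λ l (hσ := hσ) hn.regular,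
      (Set.finite_singleton v₁).compl_mem_cofinite] with v hv hv1
    simp only [G]
    rw [dif_neg (show v ≠ v₁ from hv1), hv]
  have hcG : (Function.mulSupport fun v => cfac Λ M v * G v).Finite :=
    ((finite_mulSupport_cfac Λ M).union hGf).subset fun v hv => by
      by_contra h
      simp only [Set.mem_union, Function.mem_mulSupport, not_or, not_not] at h
      exact hv (by simp [h.1, h.2])
  rw [show Λ.orbMul l hσ hn.regular v₁ p = ∏ᶠ v, G v from rfl, cfin, mul_assoc,
    ← finprod_mul_distrib (finite_mulSupport_cfac Λ M) hGf, mul_comm e,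
    ← finprod_mul_single _ v₁ e hcG]
  refine finprod_congr fun v => ?_
  simp only [G]
  split_ifs with h
  · subst h
    rw [he]; ring
  · rw [mul_one]

/-! ### The part of the heights at a slot -/

theorem norm_inclOver_moved (hσ' : S.IsGalGen σ) {v : HeightOneSpectrum (𝓞 S.K)} (w : S.OverK v)
    (hne : galPlace σ w.1 ≠ w.1) (x : v.adicCompletion S.K) : ‖S.inclOver w x‖ = ‖x‖ := by
  have key : ∀ (N N' : NNReal) (hN : N ≠ 0) (hN' : N' ≠ 0) (a : WithZero (Multiplicative ℤ)),
      N = N' → (WithZeroMulInt.toNNReal hN a : ℝ) = (WithZeroMulInt.toNNReal hN' a : ℝ) :=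
    fun N N' hN hN' a h => by subst h; rfl
  rw [FinitePlace.norm_def, FinitePlace.norm_def, valued_incl_moved hσ' w hne]
  exact key _ _ _ _ _ (by rw [natCard_residue_moved hσ' w hne])

theorem partCos_inclLCos {v : HeightOneSpectrum (𝓞 S.K)} (w : S.OverK v)
    (hne : galPlace σ w.1 ≠ w.1) (hσ' : S.IsGalGen σ) (y : LCos (D.levelIdeal S.K) v) :
    partCos w.1 (D.inclLCos w y) = partCos v y := by
  rw [Setup.Level.inclLCos, partCos_mk, partCos, partFin, partFin]
  have hn : ∀ M : GLv v, hLoc w.1 (Matrix.GeneralLinearGroup.map (S.inclOver w) M) = hLoc v M :=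
    fun M => by
      rw [hLoc, hLoc, Matrix.GeneralLinearGroup.map_apply, Matrix.GeneralLinearGroup.map_apply,
        show ((Matrix.GeneralLinearGroup.map (S.inclOver w) M : GLv w.1) :
          Matrix (Fin 2) (Fin 2) (w.1.adicCompletion S.F)).det =
          S.inclOver w (M : Matrix (Fin 2) (Fin 2) (v.adicCompletion S.K)).det from
          (RingHom.map_det _ _).symm,
        norm_inclOver_moved hσ' w hne, norm_inclOver_moved hσ' w hne, norm_inclOver_moved hσ' w hne]
  rw [← map_antiGL (S.inclOver w), ← map_mul, hn, hn]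

end FermatAgent.LTG

end
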