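import Mathlib
import Fermat.Agent.LT.General.Geom.SplitBase
import Fermat.Agent.LT.General.Geom.SplitFibre
import Fermat.Agent.LT.General.Geom.PartsAll
import Fermat.Agent.LT.Descent.Geom.SplitSides

set_option autoImplicit false

/-!
# The value of the truncated split terms, general input

The truncated term is linear in the logarithm of the bound, with the orbital sum as the slope.
-/

noncomputable section

open MeasureTheory NumberField IsDedekindDomain Filter
open scoped MatrixGroups ENNReal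

namespace FermatAgent.LTG

open Matrix
open FermatAgent.LT (H3 XInf YSpace yVol yKer Cosets LCos countable_cosets trunc heightY antiGL IsDiag2
  scaleG scaleY scaleY_apply infAct infAct_scaleX prodKer_scaleX measurable_ySmul measurable_rhoR
  measurable_kernel_move mem_trunc_iff eigen_row_diag integral_split mk_smul rationalMat finKer
  coordAt partCos partCos_smul partInf integral_fibre IsYKernel)
open FermatAgent.LT.Weight (IsWeight wMeas)

/-- The sum over the orbit classes of the integrals of the slot kernel against a function. -/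
def Setup.slotInt (S : Setup) (σ : S.F ≃+* S.F) (w₁ : InfinitePlace S.K → InfinitePlace S.F)
    (h : InfinitePlace S.F → H3 → H3 → ℂ) (t : GL (Fin 2) S.K) (G : H3 × S.TOrb t → ℂ) : ℂ :=
  ∑' b, ∫ P, S.slotKer σ w₁ h default P (Matrix.GeneralLinearGroup.map S.emb t • P) * G (P, b)
    ∂H3.vol

open Classical in
/-- The common value of a truncated split term. -/
def Setup.Level.LocalOps.splitVal {S : Setup} {σ : S.F ≃+* S.F} {D : S.Level}
    (Λ : D.LocalOps σ) (l : List (HeightOneSpectrum (𝓞 S.F))) {hσ : S.IsGalGen σ}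
    {t : GL (Fin 2) S.K}
    (ht : (t : Matrix (Fin 2) (Fin 2) S.K).trace ^ 2 ≠ 4 * (t : Matrix (Fin 2) (Fin 2) S.K).det)
    (h : InfinitePlace S.F → H3 → H3 → ℂ) (w₁ : InfinitePlace S.K → InfinitePlace S.F) (n : ℝ)
    (V : H3 × S.TOrb t → ℝ≥0∞) : ℂ :=
  ((2 * Real.log n : ℝ) : ℂ) *
      (Λ.orbK l (hσ := hσ) ht * S.slotInt σ w₁ h t (D.splitFn hσ ht V)) +
    Λ.orbK l (hσ := hσ) ht *
      S.slotInt σ w₁ h t (fun z => D.splitFn hσ ht V z * (partInf z.1 : ℂ)) +
    ∑' v, Λ.orbMul l hσ ht v (fun y => (partCos v y : ℂ)) *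
      S.slotInt σ w₁ h t (D.splitFn hσ ht V)

variable {S : Setup} {σ : S.F ≃+* S.F} {w₁ : InfinitePlace S.K → InfinitePlace S.F}
  {h : InfinitePlace S.F → H3 → H3 → ℂ} {D : S.Level} {hσ : S.IsGalGen σ} (Λ : D.LocalOps σ)
  (l : List (HeightOneSpectrum (𝓞 S.F))) (hl : S.GoodWord l)
  {t : GL (Fin 2) S.K} {a : S.K} (hs : S.IsSplit t a)
  {V : H3 × S.TOrb t → ℝ≥0∞}

include hl hs in
/-- **The split term of `K`.** -/
theorem Setup.Level.LocalOps.split_K (hk : IsYKernel (yKer (S.slotKer σ w₁ h)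
      (D.levelOpK * (l.map D.bcOp).prod)))
    (hh : ∀ u, H3.IsInvKer (S.slotKer σ w₁ h u))
    (hVm : Measurable V)
    (hV : IsWeight (S.torusK t) (yVol (D.levelIdeal S.K)) (V ∘ D.zK hσ hs.regular))
    {L₀ : ℝ} (hL : ∀ y, D.termK l h σ w₁ t y ≠ 0 → ∀ α : GL (Fin 2) S.K, L₀ < heightY α y →
      ∃ ν : S.K, (fun j => α 1 j : Fin 2 → S.K) ᵥ* (t : Matrix (Fin 2) (Fin 2) S.K) =
        ν • (fun j => α 1 j : Fin 2 → S.K))
    {n : ℝ} (hn : L₀ ≤ n) (hn1 : 1 < n)
    (hint : Integrable ((trunc (D.levelIdeal S.K) n).indicator (D.termK l h σ w₁ t))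
      (wMeas (yVol (D.levelIdeal S.K)) (V ∘ D.zK hσ hs.regular))) :
    ∫ y, (trunc (D.levelIdeal S.K) n).indicator (D.termK l h σ w₁ t) y
        ∂(wMeas (yVol (D.levelIdeal S.K)) (V ∘ D.zK hσ hs.regular)) =
      Λ.splitVal l (hσ := hσ) hs.regular h w₁ n V := by
  classical
  have hb := D.levelIdeal_ne_bot S.K
  have : Countable (Cosets (D.levelIdeal S.K)) := countable_cosets hb
  have : Countable (S.TOrb t) := D.countable_tOrb hσ hs.regular
  have : SFinite (yVol (D.levelIdeal S.K)) := by unfold yVol; infer_instance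
  set ht := hs.regular
  have hH : ∀ g ∈ S.torusK t, ∃ γ : GL (Fin 2) S.K, IsDiag2 γ ∧ Matrix.ProjGenLinGroup.mk γ = g := by
    rintro _ ⟨γ, hγ, rfl⟩
    exact ⟨γ, hs.diag_centralizer ⟨γ, hγ⟩, rfl⟩
  have hzs : ∀ (r : ℝ) (y : YSpace (D.levelIdeal S.K)), D.zK hσ ht (scaleY r y) =
      (scaleG r • (D.zK hσ ht y).1, (D.zK hσ ht y).2) := fun r y => rfl
  have htd : IsDiag2 t := ⟨by rw [hs.mat]; simp, by rw [hs.mat]; simp⟩
  have hφi : ∀ g ∈ S.torusK t, ∀ y : YSpace (D.levelIdeal S.K),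
      D.phiZ hσ ht (D.zK hσ ht (g • y)) = D.phiZ hσ ht (D.zK hσ ht y) := by
    rintro _ ⟨γ, hγ, rfl⟩ y
    rw [D.zK_smul hσ ht ⟨γ, hγ⟩ y, D.phiZ_zAct hσ hs ht]
  have hTi : ∀ g ∈ S.torusK t, ∀ y, D.termK l h σ w₁ t (g • y) = D.termK l h σ w₁ t y := by
    rintro _ ⟨γ, hγ, rfl⟩ y
    have e : Matrix.ProjGenLinGroup.mk t • Matrix.ProjGenLinGroup.mk γ • y =
        Matrix.ProjGenLinGroup.mk γ • Matrix.ProjGenLinGroup.mk t • y := by
      rw [smul_smul, smul_smul, ← map_mul, ← map_mul, Subgroup.mem_centralizer_singleton_iff.mp hγ]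
    rw [Setup.Level.termK, Setup.Level.termK, e, hk.invariant]
  have hTs : ∀ r y, D.termK l h σ w₁ t (scaleY r y) = D.termK l h σ w₁ t y := by
    rintro r ⟨x, c⟩
    rw [Setup.Level.termK, Setup.Level.termK, scaleY_apply, mk_smul, mk_smul, yKer, yKer, infAct_scaleX r htd,
      prodKer_scaleX hh]
  have hTm : Measurable (D.termK l h σ w₁ t) := by
    unfold Setup.Level.termK
    exact measurable_kernel_move hk (measurable_ySmul hb _)
  have htr : ∀ y, D.termK l h σ w₁ t y ≠ 0 → (y ∈ trunc (D.levelIdeal S.K) n ↔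
      heightY 1 y ≤ n ∧ heightY (antiGL S.K) y ≤ n) := fun y hy =>
    mem_trunc_iff hs.ne_one y fun α hα => by
      obtain ⟨ν, hν⟩ := hL y hy α (hn.trans_lt hα)
      exact ⟨ν, eigen_row_diag hs.mat hν⟩
  obtain ⟨hi, he⟩ := integral_split hb hH hV
    ((D.measurable_phiZ hσ ht).comp (D.qmp_zK hσ ht).measurable)
    (fun r y => by simp only [Function.comp_apply, hzs]; exact D.phiZ_scale hσ ht r _ _)
    hφi hTm hTi hTs hn1 htr hint
  rw [he, Fintype.card_unique, Nat.cast_one, div_one, Complex.ofReal_one, one_mul]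
  set G : H3 × S.TOrb t → ℂ := D.splitFn hσ ht V
  have hGm : Measurable G := Complex.measurable_ofReal.comp
    (hVm.ennreal_toReal.mul (measurable_rhoR.comp (D.measurable_phiZ hσ ht)))
  set E : YSpace (D.levelIdeal S.K) → ℂ := fun y => D.termK l h σ w₁ t y * G (D.zK hσ ht y)
  set A : XInf S.K → ℂ := fun x =>
    S.slotKer σ w₁ h default (x default) (Matrix.GeneralLinearGroup.map S.emb t • x default)
  set B : Cosets (D.levelIdeal S.K) → ℂ := fun c =>
    finKer (D.levelOpK * (l.map D.bcOp).prod) c (rationalMat t • c)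
  have hEe : ∀ y : YSpace (D.levelIdeal S.K), E y =
      A y.1 * B y.2 * G (y.1 default, D.orbitOfK hσ ht y.2) := by
    rintro ⟨x, c⟩
    show yKer _ _ _ (Matrix.ProjGenLinGroup.mk t • _) * _ = _
    rw [mk_smul]
    show (∏ u, S.slotKer σ w₁ h u (x u) (infAct t x u)) * _ * _ = _
    rw [Fintype.prod_unique, infAct, S.embedding_eq]
    rfl
  have hfibEq : ∀ b : S.TOrb t, {c | D.orbitOfK hσ ht c = b} =
      {c | ∀ v, (D.phiK hσ ht v).toFun (coordAt v c) = b.1 v} := fun b => by
    ext c; exact ⟨fun h v => congrFun (congrArg Subtype.val h) v, fun h => Subtype.ext (funext h)⟩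
  have hp : ∀ v, ∀ g ∈ torusAt v t, ∀ q : LCos (D.levelIdeal S.K) v,
      (partCos v (g • q) : ℂ) = (partCos v q : ℂ) := fun v g hg q => by
    rw [partCos_smul (hs.diag_torusAt hg)]
  obtain ⟨hEi, hpi, hqi, -, hparts⟩ := integral_parts_all hb
    (E := E) (hTm.mul (hGm.comp (D.qmp_zK hσ ht).measurable)) (Real.log_pos hn1) hi
  refine hparts.trans ?_
  rw [Setup.Level.LocalOps.splitVal]
  congr 1
  swap
  · refine tsum_congr fun v => ?_
    have hv := hqi v
    have e : ∀ y : YSpace (D.levelIdeal S.K), E y * (partCos v (coordAt v y.2) : ℂ) =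
        A y.1 * (B y.2 * (partCos v (coordAt v y.2) : ℂ)) *
          G (y.1 default, D.orbitOfK hσ ht y.2) := fun y => by rw [hEe]; ring
    simp only [e] at hv ⊢
    refine (integral_fibre (Measure.pi fun _ : InfinitePlace S.K => H3.vol)
      (fun x : XInf S.K => x default) (D.orbitOfK hσ ht)
      (fun c => B c * (partCos v (coordAt v c) : ℂ)) A G _
      (fun b => by
        rw [hfibEq]
        exact Λ.finsum_fibre_K_mul l hl (hσ := hσ) ht v (fun q => (partCos v q : ℂ)) (hp v) b.1 b.2)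
      hv).2.trans ?_
    congr 1
    exact tsum_congr fun b => S.measurePreserving_point.integral_comp
      (MeasurableEquiv.funUnique (InfinitePlace S.K) H3).measurableEmbedding
      fun P => S.slotKer σ w₁ h default P (Matrix.GeneralLinearGroup.map S.emb t • P) * G (P, b)
  congr 1
  · congr 1
    exact Λ.integral_termK (w₁ := w₁) (hσ := hσ) l hl ht (G := G) hEi
  · rw [Fintype.sum_unique]
    have hu := hpi default
    have e : ∀ y : YSpace (D.levelIdeal S.K), E y * (partInf (y.1 default) : ℂ) =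
        D.termK l h σ w₁ t y * (G (D.zK hσ ht y) * (partInf (D.zK hσ ht y).1 : ℂ)) := fun y =>
      mul_assoc _ _ _
    simp only [e] at hu ⊢
    exact Λ.integral_termK (w₁ := w₁) (hσ := hσ) l hl ht
      (G := fun z => G z * (partInf z.1 : ℂ)) hu

end FermatAgent.LTG

end
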