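import Mathlib
import Fermat.Agent.LT.Descent.Geom.SplitGen

set_option autoImplicit false

/-!
# Independence of the weight and of the fixed window

A weight of the diagonal torus together with the window of a coordinate moved by the scaling is a
weight for the torus and the scaling: integrals of invariant functions do not depend on it.  The
part at an infinite place is invariant under both.
-/

noncomputable section

open MeasureTheory NumberField IsDedekindDomain Filter
open scoped MatrixGroups ENNReal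

namespace FermatAgent.LTG

open FermatAgent.LT (H3 XInf YSpace yVol Cosets countable_cosets IsDiag2 scaleY scaleX_apply
  measurePreserving_ySmul splitShift rhoR measurable_rhoR partInf hInfPt antiGL)
open FermatAgent.LT.Weight (IsWeight ShiftData wMeas)

section Shift

variable {G Z : Type*} [Group G] [MulAction G Z] [MeasurableSpace Z] {μ : Measure Z} [SFinite μ]
  [Countable G] {H : Subgroup G} {w w' : Z → ℝ≥0∞} {c c' ℓ ℓ' : ℝ}

/-- Two weights with windows give the same integrals of invariant functions. -/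
theorem lintegral_window_eq (hμ : ∀ g : G, MeasurePreserving (fun z : Z => g • z) μ μ)
    (D : ShiftData H μ w c ℓ) (D' : ShiftData H μ w' c' ℓ') (hfl : D'.flow = D.flow)
    {F : Z → ℝ≥0∞} (hF : Measurable F) (hinv : ∀ g ∈ H, ∀ z, F (g • z) = F z)
    (hflow : ∀ r z, F (D.flow r z) = F z) :
    ∫⁻ z, F z * (w z * D.rho z) ∂μ = ∫⁻ z, F z * (w' z * D'.rho z) ∂μ := by
  let E : ShiftData H μ w 2 1 :=
    { flow := D.flow
      mp := D.mp
      flow_smul := D.flow_smul
      weight := D.weight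
      u := D'.φ
      low := fun _ => 1
      φ := D.φ
      pos := two_pos
      u_meas := D'.φ_meas
      low_meas := measurable_const
      φ_meas := D.φ_meas
      u_flow := fun r z => hfl ▸ D'.φ_flow r z
      low_flow := fun _ _ => rfl
      φ_flow := D.φ_flow
      u_inv := D'.φ_inv
      low_inv := fun _ _ _ => rfl
      φ_inv := D.φ_inv }
  have hwin : ∀ z, E.win.indicator (1 : Z → ℝ≥0∞) z = D'.rho z := fun z => by
    simp [E, ShiftData.win, ShiftData.rho, Set.indicator]
  have hdens : ∀ z, E.dens z = D.rho z := fun z => by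
    show ENNReal.ofReal (2 / 2 * (2 * 1 - 1)) * _ = _
    norm_num
    rfl
  have h1 := E.lintegral_eq hμ hF hinv hflow
  simp only [hwin, hdens] at h1
  have h2 := FermatAgent.LT.Weight.lintegral_eq hμ D.weight D'.weight
    (F := fun z => F z * D'.rho z) (hF.mul D'.measurable_rho) (fun g hg z => by
      simp only [ShiftData.rho, Set.indicator, Set.mem_ofPred_eq, hinv g hg, D'.φ_inv g hg,
        Pi.one_apply])
  calc ∫⁻ z, F z * (w z * D.rho z) ∂μ = ∫⁻ z, F z * D.rho z * w z ∂μ :=
        lintegral_congr fun z => by ring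
    _ = _ := (h1.symm.trans h2).trans (lintegral_congr fun z => by ring)

end Shift

variable {L : Type*} [Field L] [NumberField L] [IsTotallyComplex L] {𝔫 : Ideal (𝓞 L)}

/-- **The change of weight and window.** -/
theorem window_change (h𝔫 : 𝔫 ≠ ⊥) {H : Subgroup PGL(2, L)}
    (hH : ∀ g ∈ H, ∃ γ : GL (Fin 2) L, IsDiag2 γ ∧ Matrix.ProjGenLinGroup.mk γ = g)
    {w w' : YSpace 𝔫 → ℝ≥0∞} (hw : IsWeight H (yVol 𝔫) w) (hw' : IsWeight H (yVol 𝔫) w')
    {φ φ' : YSpace 𝔫 → ℝ} (hφ : Measurable φ) (hφs : ∀ r y, φ (scaleY r y) = φ y + 2 * r)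
    (hφi : ∀ g ∈ H, ∀ y, φ (g • y) = φ y) (hφ' : Measurable φ')
    (hφs' : ∀ r y, φ' (scaleY r y) = φ' y + 2 * r) (hφi' : ∀ g ∈ H, ∀ y, φ' (g • y) = φ' y)
    {F : YSpace 𝔫 → ℂ} (hF : Measurable F) (hinv : ∀ g ∈ H, ∀ y, F (g • y) = F y)
    (hflow : ∀ r y, F (scaleY r y) = F y)
    (hint : Integrable (fun y => F y * (((w y).toReal * rhoR (φ y) : ℝ) : ℂ)) (yVol 𝔫)) :
    Integrable (fun y => F y * (((w' y).toReal * rhoR (φ' y) : ℝ) : ℂ)) (yVol 𝔫) ∧
      ∫ y, F y * (((w y).toReal * rhoR (φ y) : ℝ) : ℂ) ∂(yVol 𝔫) =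
        ∫ y, F y * (((w' y).toReal * rhoR (φ' y) : ℝ) : ℂ) ∂(yVol 𝔫) := by
  have : Countable (Cosets 𝔫) := countable_cosets h𝔫
  have : SFinite (yVol 𝔫) := by unfold yVol; infer_instance
  set D := splitShift h𝔫 hH hw hφ hφs hφi 0
  set D' := splitShift h𝔫 hH hw' hφ' hφs' hφi' 0
  set ν := (yVol 𝔫).withDensity fun y => w y * D.rho y with hν
  set ν' := (yVol 𝔫).withDensity fun y => w' y * D'.rho y with hν'
  have hmap : ν.map F = ν'.map F := by
    refine Measure.ext fun s hs => ?_
    have hs' := hF hs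
    rw [Measure.map_apply hF hs, Measure.map_apply hF hs, hν, hν', withDensity_apply _ hs',
      withDensity_apply _ hs', ← lintegral_indicator hs', ← lintegral_indicator hs']
    have key : ∀ v : YSpace 𝔫 → ℝ≥0∞, (fun y => (F ⁻¹' s).indicator v y) =
        fun y => (F ⁻¹' s).indicator (fun _ => 1) y * v y :=
      fun v => funext fun y => by by_cases h : y ∈ F ⁻¹' s <;> simp [h]
    rw [key, key]
    exact lintegral_window_eq (measurePreserving_ySmul h𝔫) D D' rfl
      (measurable_const.indicator hs') (fun g hg y => by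
        by_cases h : F y ∈ s <;> simp [h, hinv g hg])
      fun r y => by
        show (F ⁻¹' s).indicator _ (scaleY r y) = _
        by_cases h : F y ∈ s <;> simp [h, hflow r]
  have hfin : ∀ (v : YSpace 𝔫 → ℝ≥0∞) (ψ : YSpace 𝔫 → ℝ) (hv : IsWeight H (yVol 𝔫) v)
      (hψ : Measurable ψ) (hψs : ∀ r y, ψ (scaleY r y) = ψ y + 2 * r)
      (hψi : ∀ g ∈ H, ∀ y, ψ (g • y) = ψ y) (f : YSpace 𝔫 → ℂ),
      (Integrable f ((yVol 𝔫).withDensity fun y => v y * (splitShift h𝔫 hH hv hψ hψs hψi 0).rho y) ↔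
        Integrable (fun y => f y * (((v y).toReal * rhoR (ψ y) : ℝ) : ℂ)) (yVol 𝔫)) ∧
      ∫ y, f y ∂((yVol 𝔫).withDensity fun y => v y * (splitShift h𝔫 hH hv hψ hψs hψi 0).rho y) =
        ∫ y, f y * (((v y).toReal * rhoR (ψ y) : ℝ) : ℂ) ∂(yVol 𝔫) := by
    intro v ψ hv hψ hψs hψi f
    set E := splitShift h𝔫 hH hv hψ hψs hψi 0
    have hm : Measurable fun y => v y * E.rho y := hv.measurable.mul E.measurable_rho
    have hlt : ∀ᵐ y ∂(yVol 𝔫), v y * E.rho y < ⊤ := by
      filter_upwards [hv.ae_lt_top] with y hy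
      exact ENNReal.mul_lt_top hy (lt_of_le_of_lt (Set.indicator_le_self' (fun _ _ => zero_le) y)
        ENNReal.one_lt_top)
    have e : (fun y => (v y * E.rho y).toReal • f y) =
        fun y => f y * (((v y).toReal * rhoR (ψ y) : ℝ) : ℂ) := funext fun y => by
      have hρ : (E.rho y).toReal = rhoR (ψ y) := by
        show (({z | 0 ≤ ψ z ∧ ψ z ≤ 1} : Set (YSpace 𝔫)).indicator (1 : YSpace 𝔫 → ℝ≥0∞) y).toReal = _
        by_cases h : 0 ≤ ψ y ∧ ψ y ≤ 1 <;> simp [Set.indicator, rhoR, h]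
      rw [ENNReal.toReal_mul, hρ, Complex.real_smul, mul_comm]
    refine ⟨?_, ?_⟩
    · rw [← e]
      exact integrable_withDensity_iff_integrable_smul' hm hlt
    · rw [← e]
      exact integral_withDensity_eq_integral_toReal_smul hm hlt f
  have h1 := hfin w φ hw hφ hφs hφi F
  have h2 := hfin w' φ' hw' hφ' hφs' hφi' F
  rw [← h1.2, ← h2.2]
  refine ⟨h2.1.mp ?_, ?_⟩
  · have h3 := (integrable_map_measure aestronglyMeasurable_id hF.aemeasurable).mpr (h1.1.mpr hint)
    rw [hmap] at h3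
    exact (integrable_map_measure aestronglyMeasurable_id hF.aemeasurable).mp h3
  · have h : ∀ m : Measure (YSpace 𝔫), ∫ z, F z ∂m = ∫ c, c ∂(m.map F) := fun m =>
      (integral_map (f := id) hF.aemeasurable aestronglyMeasurable_id).symm
    show ∫ y, F y ∂ν = ∫ y, F y ∂ν'
    rw [h, h, hmap]

/-- The part at an infinite place does not change under the diagonal torus. -/
theorem partInf_diag_smul {g : GL (Fin 2) ℂ} (hg : IsDiag2 g) (P : H3) :
    partInf (g • P) = partInf P := by
  obtain ⟨h0, h1⟩ := hg.ne_zero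
  have hd : (g : Matrix (Fin 2) (Fin 2) ℂ).det = g 0 0 * g 1 1 := by
    rw [Matrix.det_fin_two, hg.1, zero_mul, sub_zero]
  have n0 : ‖g 0 0‖ ≠ 0 := norm_ne_zero_iff.mpr h0
  have n1 : ‖g 1 1‖ ≠ 0 := norm_ne_zero_iff.mpr h1
  have e : hInfPt 1 (g • P) * hInfPt (antiGL ℂ) (g • P) = hInfPt 1 P * hInfPt (antiGL ℂ) P := by
    simp only [hInfPt, one_smul, ← mul_smul, FermatAgent.LT.t_smul_eq, Units.val_mul, Matrix.det_mul,
      hd, norm_mul]
    simp [H3.den, FermatAgent.LT.antiGL_entries, Matrix.det_fin_two, Matrix.mul_apply,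
      Fin.sum_univ_two, hg.1, hg.2, Complex.normSq_eq_norm_sq]
    field_simp
  rw [partInf, partInf, e]

theorem partInf_conjPt (P : H3) : partInf (FermatAgent.LT.H3.conjPt P) = partInf P := by
  have hc : ∀ M : GL (Fin 2) ℂ, Matrix.GeneralLinearGroup.map (starRingEnd ℂ) M = M →
      hInfPt M (FermatAgent.LT.H3.conjPt P) = hInfPt M P := fun M hM => by
    rw [hInfPt, hInfPt]
    conv_lhs => rw [← hM, ← FermatAgent.LT.H3.conjPt_smul]
    rfl
  rw [partInf, partInf, hc 1 (map_one _), hc (antiGL ℂ) (FermatAgent.LT.map_antiGL _)]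

end FermatAgent.LTG

end
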