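import Mathlib
import Fermat.Agent.LT.General.Geom.SplitSides
import Fermat.Agent.LT.General.Geom.WindowWeight
import Fermat.Agent.LT.General.Geom.InfinitySlots
import Fermat.Agent.LT.Descent.Geom.SplitSideF

set_option autoImplicit false

/-!
# The truncated split terms of `F`, general input

The truncation of `F` is at the cube of the bound of `K`; the value is the constant times the one
of `K`.
-/

noncomputable section

open MeasureTheory NumberField IsDedekindDomain Filter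
open scoped MatrixGroups ENNReal

namespace FermatAgent.LTG

open Matrix
open FermatAgent.LT (H3 XInf YSpace yVol yKer Cosets LCos countable_cosets trunc heightY antiGL IsDiag2
  scaleG scaleY scaleY_apply infAct infAct_scaleX prodKer prodKer_scaleX galX galX_scaleX galY galY_smul
  galYEquiv galYEquiv_apply galPGL galCoset ptEmb ptEmb_scaleX measurable_ySmul measurable_rhoR rhoR
  measurable_kernel_move mem_trunc_iff eigen_row_diag integral_split mk_smul rationalMat finKer heckeWord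
  coordAt partCos partCos_smul partInf partInf_scale measurable_partInf integral_fibre IsYKernel
  isDiag2_map isDiag2_commute galPlace)
open FermatAgent.LT.Weight (IsWeight wMeas)

variable {S : Setup} {σ : S.F ≃+* S.F} {w₁ : InfinitePlace S.K → InfinitePlace S.F}
  {h : InfinitePlace S.F → H3 → H3 → ℂ} {D : S.Level} {hσ : S.IsGalGen σ} (Λ : D.LocalOps σ)
  (M : Setup.Level.FixedMatch Λ hσ)
  (l : List (HeightOneSpectrum (𝓞 S.F))) (hl : S.GoodWord l)
  {t : GL (Fin 2) S.K} {δ : GL (Fin 2) S.F} {a : S.K} (hs : S.IsSplit t a)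
  {V : H3 × S.TOrb t → ℝ≥0∞}

include hl hs M in
/-- **The split term of `F`.** -/
theorem Setup.Level.LocalOps.split_F (hw₁ : ∀ u, (w₁ u).comap S.inclKF.toRingHom = u)
    (hk : IsYKernel (yKer h (D.levelOpF σ * heckeWord (D.levelIdeal S.F) l)))
    (hh : ∀ w, H3.IsInvKer (h w)) (hn : S.IsNormPair σ t δ) (hVm : Measurable V)
    (hV : IsWeight (S.torusF t) (yVol (D.levelIdeal S.F)) (V ∘ D.zF hσ hs.regular w₁))
    (hVall : ∀ w' : InfinitePlace S.K → InfinitePlace S.F,
      (∀ k, (w' k).comap S.inclKF.toRingHom = k) →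
        IsWeight (S.torusF t) (yVol (D.levelIdeal S.F)) (V ∘ D.zF hσ hs.regular w'))
    {L₀ : ℝ} (hL : ∀ y, D.termF l h σ δ y ≠ 0 → ∀ α : GL (Fin 2) S.F, L₀ < heightY α y →
      ∃ ν : S.F, (fun j => α 1 j : Fin 2 → S.F) ᵥ*
        ((Matrix.GeneralLinearGroup.map S.inclKF.toRingHom t : GL (Fin 2) S.F) :
          Matrix (Fin 2) (Fin 2) S.F) = ν • (fun j => α 1 j : Fin 2 → S.F))
    {n : ℝ} (hn0 : L₀ ≤ n ^ 3) (hn1 : 1 < n)
    (hint : Integrable ((trunc (D.levelIdeal S.F) (n ^ 3)).indicator (D.termF l h σ δ))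
      (wMeas (yVol (D.levelIdeal S.F)) (V ∘ D.zF hσ hs.regular w₁))) :
    ∫ y, (trunc (D.levelIdeal S.F) (n ^ 3)).indicator (D.termF l h σ δ) y
        ∂(wMeas (yVol (D.levelIdeal S.F)) (V ∘ D.zF hσ hs.regular w₁)) =
      cfin Λ M * Λ.splitVal l (hσ := hσ) hs.regular h w₁ n V := by
  classical
  have hb := D.levelIdeal_ne_bot S.F
  have : Fact (D.levelIdeal S.F ≠ ⊥) := ⟨hb⟩
  have : Countable (Cosets (D.levelIdeal S.F)) := countable_cosets hb
  have : Countable (S.TOrb t) := D.countable_tOrb hσ hs.regular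
  have : SFinite (yVol (D.levelIdeal S.F)) := by unfold yVol; infer_instance
  set ht := hs.regular
  set ι := Matrix.GeneralLinearGroup.map (n := Fin 2) S.inclKF.toRingHom
  have hH : ∀ g ∈ S.torusF t, ∃ γ : GL (Fin 2) S.F, IsDiag2 γ ∧ Matrix.ProjGenLinGroup.mk γ = g := by
    rintro _ ⟨_, ⟨γ, hγ, rfl⟩, rfl⟩
    exact ⟨ι γ, isDiag2_map _ (hs.diag_centralizer ⟨γ, hγ⟩), rfl⟩
  have hzs : ∀ (r : ℝ) (y : YSpace (D.levelIdeal S.F)), D.zF hσ ht w₁ (scaleY r y) =
      (scaleG r • (D.zF hσ ht w₁ y).1, (D.zF hσ ht w₁ y).2) := fun r y =>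
    Prod.ext (ptEmb_scaleX r y.1 _) rfl
  have hδd : IsDiag2 δ := hs.diag_delta hσ hn
  have hφi : ∀ g ∈ S.torusF t, ∀ y : YSpace (D.levelIdeal S.F),
      D.phiZ hσ ht (D.zF hσ ht w₁ (g • y)) = D.phiZ hσ ht (D.zF hσ ht w₁ y) := by
    rintro _ ⟨_, ⟨γ, hγ, rfl⟩, rfl⟩ y
    rw [D.zF_smul hσ ht hw₁ ⟨γ, hγ⟩ y, D.phiZ_zAct hσ hs ht]
  have hTi : ∀ g ∈ S.torusF t, ∀ y, D.termF l h σ δ (g • y) = D.termF l h σ δ y := by
    rintro _ ⟨_, ⟨γ, hγ, rfl⟩, rfl⟩ y
    have hfix : galPGL σ (pInclM S (Matrix.ProjGenLinGroup.mk γ)) =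
        pInclM S (Matrix.ProjGenLinGroup.mk γ) := by
      rw [pInclM, LT.Classes.pMap_mk]
      exact congrArg Matrix.ProjGenLinGroup.mk (Matrix.GeneralLinearGroup.ext fun i j => hσ.2 _)
    have e : Matrix.ProjGenLinGroup.mk δ • galY σ (pInclM S (Matrix.ProjGenLinGroup.mk γ) • y) =
        pInclM S (Matrix.ProjGenLinGroup.mk γ) • Matrix.ProjGenLinGroup.mk δ • galY σ y := by
      rw [galY_smul (D.levelIdeal_map σ), hfix, smul_smul, smul_smul, pInclM, LT.Classes.pMap_mk,
        ← map_mul, ← map_mul, isDiag2_commute hδd (isDiag2_map _ (hs.diag_centralizer ⟨γ, hγ⟩))]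
    rw [Setup.Level.termF, Setup.Level.termF, e, hk.invariant]
  have hTs : ∀ r y, D.termF l h σ δ (scaleY r y) = D.termF l h σ δ y := by
    rintro r ⟨x, c⟩
    rw [Setup.Level.termF, Setup.Level.termF, scaleY_apply, galY, galY, galX_scaleX, mk_smul, mk_smul, yKer, yKer,
      infAct_scaleX r hδd, prodKer_scaleX hh]
  have hTm : Measurable (D.termF l h σ δ) := by
    unfold Setup.Level.termF
    refine measurable_kernel_move hk ((measurable_ySmul hb _).comp ?_)
    rw [show (galY σ : YSpace (D.levelIdeal S.F) → _) = ⇑(galYEquiv (D.levelIdeal_map σ)) from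
      funext fun y => (galYEquiv_apply _ y).symm]
    exact (galYEquiv (D.levelIdeal_map σ)).measurable
  have hta : S.inclKF a ≠ 1 := fun e => hs.ne_one (S.inclKF.injective (e.trans (map_one S.inclKF).symm))
  have htm : ((ι t : GL (Fin 2) S.F) : Matrix (Fin 2) (Fin 2) S.F) =
      Matrix.diagonal ![S.inclKF a, 1] := by
    refine (congrArg S.inclKF.toRingHom.mapMatrix hs.mat).trans ?_
    ext i j
    fin_cases i <;> fin_cases j <;> simp
  have htr : ∀ y, D.termF l h σ δ y ≠ 0 → (y ∈ trunc (D.levelIdeal S.F) (n ^ 3) ↔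
      heightY 1 y ≤ n ^ 3 ∧ heightY (antiGL S.F) y ≤ n ^ 3) := fun y hy =>
    mem_trunc_iff hta y fun α hα => by
      obtain ⟨ν, hν⟩ := hL y hy α (hn0.trans_lt hα)
      exact ⟨ν, eigen_row_diag htm hν⟩
  obtain ⟨hi, he⟩ := integral_split hb hH hV
    ((D.measurable_phiZ hσ ht).comp (D.qmp_zF ht hσ hw₁).measurable)
    (fun r y => by simp only [Function.comp_apply, hzs]; exact D.phiZ_scale hσ ht r _ _)
    hφi hTm hTi hTs (one_lt_pow₀ hn1 three_ne_zero) htr hint
  have hcardInf : Fintype.card (InfinitePlace S.F) = 3 := by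
    rw [← Fintype.card_congr (Setup.placeEquiv hσ hw₁), Fintype.card_fin]
  rw [he, hcardInf]
  set G : H3 × S.TOrb t → ℂ := D.splitFn hσ ht V
  have hGm : Measurable G := Complex.measurable_ofReal.comp
    (hVm.ennreal_toReal.mul (measurable_rhoR.comp (D.measurable_phiZ hσ ht)))
  set E : YSpace (D.levelIdeal S.F) → ℂ := fun y => D.termF l h σ δ y * G (D.zF hσ ht w₁ y)
  set O : ℂ := cfin Λ M * Λ.orbK l (hσ := hσ) ht
  set J : ℂ := S.slotInt σ w₁ h t G
  set A : XInf S.F → ℂ := fun x => prodKer h x (infAct δ (galX σ x))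
  set B : Cosets (D.levelIdeal S.F) → ℂ := fun c =>
    finKer (D.levelOpF σ * heckeWord _ l) c (rationalMat δ • galCoset σ c)
  have hEe : ∀ y : YSpace (D.levelIdeal S.F), E y =
      A y.1 * B y.2 * G (ptEmb y.1 (S.phi0 w₁), D.orbitOfF hσ ht y.2) := by
    rintro ⟨x, c⟩
    show yKer _ _ _ (Matrix.ProjGenLinGroup.mk δ • galY σ _) * _ = _
    rw [galY, mk_smul]
    rfl
  have hfibEq : ∀ b : S.TOrb t, {c | D.orbitOfF hσ ht c = b} =
      {c | ∀ v, (D.phiF hσ ht v).toFun (D.coordF v c) = b.1 v} := fun b => by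
    ext c; exact ⟨fun h v => congrFun (congrArg Subtype.val h) v, fun h => Subtype.ext (funext h)⟩
  have hp : ∀ (v : HeightOneSpectrum (𝓞 S.K)) (w : S.OverK v), ∀ g ∈ torusAt v t, ∀ x : D.XF v,
      (partCos w.1 ((g • x) w) : ℂ) = (partCos w.1 (x w) : ℂ) := fun v w g hg x => by
    rw [Setup.Level.XF_smul_apply, partCos_smul (isDiag2_map _ (hs.diag_torusAt hg))]
  -- a weight of a slot
  have hslot : ∀ {v : HeightOneSpectrum (𝓞 S.K)} (w : S.OverK v) (e : ℂ),
      (∑ᶠ x ∈ (D.phiF hσ ht v).fibre, Λ.bF l hσ δ v x * (partCos w.1 (x w) : ℂ) =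
        e * cfac Λ M v * ∑ᶠ y ∈ (D.phiK hσ ht v).fibre, Λ.bK l t v y * (partCos v y : ℂ)) →
      Integrable (fun y => E y * (partCos w.1 (coordAt w.1 y.2) : ℂ)) (yVol (D.levelIdeal S.F)) →
      ∫ y, E y * (partCos w.1 (coordAt w.1 y.2) : ℂ) ∂(yVol (D.levelIdeal S.F)) =
        e * (cfin Λ M * (Λ.orbMul l hσ ht v (fun q => (partCos v q : ℂ)) * J)) := by
    intro v w e hloc hw
    have e1 : ∀ y : YSpace (D.levelIdeal S.F), E y * (partCos w.1 (coordAt w.1 y.2) : ℂ) =
        A y.1 * (B y.2 * (partCos w.1 (coordAt w.1 y.2) : ℂ)) *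
          G (ptEmb y.1 (S.phi0 w₁), D.orbitOfF hσ ht y.2) := fun y => by rw [hEe]; ring
    simp only [e1] at hw ⊢
    set Q : ℂ := e * cfin Λ M * Λ.orbMul l hσ ht v (fun q => (partCos v q : ℂ))
    have hfib : ∀ b : S.TOrb t, ({c | D.orbitOfF hσ ht c = b} ∩
        Function.support fun c => B c * (partCos w.1 (coordAt w.1 c) : ℂ)).Finite ∧
        ∑ᶠ c ∈ {c | D.orbitOfF hσ ht c = b}, B c * (partCos w.1 (coordAt w.1 c) : ℂ) = Q :=
      fun b => by
        rw [hfibEq]
        exact Λ.finsum_fibre_F_one l hl M hn w (fun q => (partCos w.1 q : ℂ)) (hp v w) hloc b.1 b.2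
    have hF := integral_fibre (Measure.pi fun _ : InfinitePlace S.F => H3.vol)
      (fun x => ptEmb x (S.phi0 w₁)) (D.orbitOfF hσ ht) _ A G _ hfib hw
    refine hF.2.trans ?_
    rw [← mul_assoc e, ← mul_assoc (e * cfin Λ M)]
    rcases eq_or_ne Q 0 with hz | hz
    · rw [hz, zero_mul]
      show _ = Q * J
      rw [hz, zero_mul]
    · refine congrArg (Q * ·) ?_
      exact tsum_congr fun b =>
        Setup.integral_infinity hσ hw₁ hh hn.norm (g := fun P => G (P, b)) (hF.1 hz b)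
  -- the parts
  obtain ⟨hEi, hpi, hqi, hqs, hparts⟩ := integral_parts_all hb
    (E := E) (hTm.mul (hGm.comp (D.qmp_zF ht hσ hw₁).measurable))
    (Real.log_pos (one_lt_pow₀ hn1 three_ne_zero)) hi
  refine (congrArg _ hparts).trans ?_
  have hinf : ∀ u, ∫ y, E y * (partInf (y.1 u) : ℂ) ∂(yVol (D.levelIdeal S.F)) =
      O * S.slotInt σ w₁ h t (fun z => G z * (partInf z.1 : ℂ)) := by
    intro u
    set w' : InfinitePlace S.K → InfinitePlace S.F := fun _ => u
    have hw' : ∀ k, (w' k).comap S.inclKF.toRingHom = k := fun k => Subsingleton.elim _ _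
    have hV' := hVall w' hw'
    have hzs' : ∀ (r : ℝ) (y : YSpace (D.levelIdeal S.F)), D.zF hσ ht w' (scaleY r y) =
        (scaleG r • (D.zF hσ ht w' y).1, (D.zF hσ ht w' y).2) := fun r y =>
      Prod.ext (ptEmb_scaleX r y.1 _) rfl
    have hφi' : ∀ g ∈ S.torusF t, ∀ y : YSpace (D.levelIdeal S.F),
        D.phiZ hσ ht (D.zF hσ ht w' (g • y)) = D.phiZ hσ ht (D.zF hσ ht w' y) := by
      rintro _ ⟨_, ⟨γ, hγ, rfl⟩, rfl⟩ y
      rw [D.zF_smul hσ ht hw' ⟨γ, hγ⟩ y, D.phiZ_zAct hσ hs ht]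
    set F : YSpace (D.levelIdeal S.F) → ℂ := fun y => D.termF l h σ δ y * (partInf (y.1 u) : ℂ)
    have hFm : Measurable F := hTm.mul (Complex.measurable_ofReal.comp
      (measurable_partInf.comp ((measurable_pi_apply u).comp measurable_fst)))
    have hFi : ∀ g ∈ S.torusF t, ∀ y, F (g • y) = F y := by
      intro g hg y
      obtain ⟨γ, hγ, rfl⟩ := hH g hg
      simp only [F, hTi _ hg]
      obtain ⟨x, c⟩ := y
      rw [mk_smul]
      congr 2
      exact partInf_diag_smul (isDiag2_map _ hγ) _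
    have hFs : ∀ r y, F (scaleY r y) = F y := by
      intro r y
      simp only [F, hTs]
      congr 2
      exact partInf_scale r _
    have hq := hpi u
    have e : ∀ y, E y * (partInf (y.1 u) : ℂ) = F y * ((((V ∘ D.zF hσ ht w₁) y).toReal *
        rhoR (D.phiZ hσ ht (D.zF hσ ht w₁ y)) : ℝ) : ℂ) := fun y => mul_right_comm _ _ _
    simp only [e] at hq ⊢
    obtain ⟨h1, h2⟩ := window_change hb hH hV hV'
      ((D.measurable_phiZ hσ ht).comp (D.qmp_zF ht hσ hw₁).measurable)
      (fun r y => by simp only [Function.comp_apply, hzs]; exact D.phiZ_scale hσ ht r _ _) hφi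
      ((D.measurable_phiZ hσ ht).comp (D.qmp_zF ht hσ hw').measurable)
      (fun r y => by simp only [Function.comp_apply, hzs']; exact D.phiZ_scale hσ ht r _ _) hφi'
      hFm hFi hFs hq
    refine h2.trans ?_
    have hpt : ∀ y : YSpace (D.levelIdeal S.F), partInf (ptEmb y.1 (S.phi0 w')) = partInf (y.1 u) :=
      fun y => by
        unfold ptEmb
        rw [show InfinitePlace.mk (S.phi0 w') = u from S.mk_phi0 w']
        split_ifs
        · rfl
        · exact partInf_conjPt _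
    have e' : ∀ y, F y * ((((V ∘ D.zF hσ ht w') y).toReal *
        rhoR ((D.phiZ hσ ht ∘ D.zF hσ ht w') y) : ℝ) : ℂ) =
        D.termF l h σ δ y * (G (D.zF hσ ht w' y) * (partInf (D.zF hσ ht w' y).1 : ℂ)) := fun y => by
      show _ = _ * (G _ * (partInf (ptEmb y.1 (S.phi0 w')) : ℂ))
      rw [hpt]
      exact (mul_assoc _ _ _).trans (congrArg _ (mul_comm _ _))
    simp only [e'] at h1 ⊢
    refine (Λ.integral_termF hσ hw' M l hl hh hn (G := fun z => G z * (partInf z.1 : ℂ)) h1).trans ?_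
    simp only [w', Setup.slotKer_eq_of_place (w₁ := w₁) hσ hh u]
    rfl
  have hfin : ∑' w, ∫ y, E y * (partCos w (coordAt w y.2) : ℂ) ∂(yVol (D.levelIdeal S.F)) =
      3 * cfin Λ M * ∑' v, Λ.orbMul l hσ ht v (fun q => (partCos v q : ℂ)) * J := by
    rw [← (Equiv.sigmaFiberEquiv S.underK).tsum_eq]
    have hqs' := (Equiv.sigmaFiberEquiv S.underK).summable_iff.mpr hqs
    refine (hqs'.tsum_sigma).trans ?_
    rw [← tsum_mul_left]
    refine tsum_congr fun v => ?_
    have : Finite (S.OverK v) := (S.finite_overK_places v).to_subtype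
    let _ := Fintype.ofFinite (S.OverK v)
    rw [tsum_fintype]
    show ∑ w : S.OverK v, ∫ y, E y * (partCos w.1 (coordAt w.1 y.2) : ℂ)
      ∂(yVol (D.levelIdeal S.F)) = _
    rcases moved_or_fixed hσ v with hmv | ⟨hfx, hsub⟩
    · have hval : ∀ w : S.OverK v, ∫ y, E y * (partCos w.1 (coordAt w.1 y.2) : ℂ)
          ∂(yVol (D.levelIdeal S.F)) = cfin Λ M * (Λ.orbMul l hσ ht v
            (fun q => (partCos v q : ℂ)) * J) := fun w => by
        refine (hslot w 1 ?_ (hqi w.1)).trans (one_mul _)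
        rw [cfac_of_moved Λ M hmv, mul_one, one_mul,
          local_matching_slot Λ l hl hn v w (hmv w) (fun q => (partCos w.1 q : ℂ)) (hp v w)
            (D.isFundSet_phiF hσ ht v) (D.isFundSet_phiK hσ ht v)]
        exact finsum_mem_congr rfl fun q _ => by rw [partCos_inclLCos w (hmv w) hσ q]
      obtain ⟨u⟩ := exists_overK_place S v
      obtain ⟨d1, d2, d3⟩ := (three_overK hσ u (hmv u) u).1
      have hcard : Fintype.card (S.OverK v) = 3 := by
        rw [← Finset.card_univ, Finset.card_eq_three]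
        refine ⟨u, _, _, d1.symm, d2.symm, d3.symm, Finset.eq_univ_of_forall (fun x => ?_) |>.symm⟩
        simp only [Finset.mem_insert, Finset.mem_singleton]
        exact (three_overK hσ u (hmv u) x).2
      rw [Finset.sum_congr rfl fun w _ => hval w, Finset.sum_const, Finset.card_univ, hcard,
        nsmul_eq_mul]
      push_cast
      ring
    · obtain ⟨u⟩ := exists_overK_place S v
      rw [Fintype.sum_subsingleton _ u, hslot u 3
        (local_matching_fixed Λ l hl M hn hs.mat v u (hfx u) (D.isFundSet_phiF hσ ht v)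
          (D.isFundSet_phiK hσ ht v)) (hqi u.1)]
      ring
  have hE : ∫ y, E y ∂(yVol (D.levelIdeal S.F)) = O * J :=
    Λ.integral_termF hσ hw₁ M l hl hh hn (G := G) hEi
  rw [hE, Finset.sum_congr rfl fun u _ => hinf u, Finset.sum_const, Finset.card_univ, hcardInf,
    hfin, Setup.Level.LocalOps.splitVal, Real.log_pow]
  simp only [nsmul_eq_mul, O]
  push_cast
  ring

end FermatAgent.LTG

end
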