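import Mathlib
import Fermat.Agent.LT.General.Geom.SplitSideF
import Fermat.Agent.LT.General.Geom.NonNorm
import Fermat.Agent.LT.Descent.Geom.ClassTerms

set_option autoImplicit false

/-!
# The terms of one class on the truncated domains, general input

A class which is a norm gives on `F`, truncated at the cube of the bound, the constant times its
term on `K`; the terms of the other classes vanish identically.
-/

noncomputable section

open MeasureTheory NumberField IsDedekindDomain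
open scoped MatrixGroups ENNReal

namespace FermatAgent.LTG

open Matrix
open FermatAgent.LT (H3 YSpace yVol yKer galY heckeWord trunc trunc_mono heightY IsYKernel
  integral_wMeas_toReal mk_smul finKer rationalMat)
open FermatAgent.LT.Weight (IsWeight wMeas)
open FermatAgent.LT.TF (nm)

variable {S : Setup} {σ : S.F ≃+* S.F} {w₁ : InfinitePlace S.K → InfinitePlace S.F}
  {h : InfinitePlace S.F → H3 → H3 → ℂ} {D : S.Level} {hσ : S.IsGalGen σ} (Λ : D.LocalOps σ)
  (M : Setup.Level.FixedMatch Λ hσ)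
  (l : List (HeightOneSpectrum (𝓞 S.F))) (hl : S.GoodWord l)
  {t : GL (Fin 2) S.K} {δ : GL (Fin 2) S.F}
  {V : H3 × S.TOrb t → ℝ≥0∞}

include hl M in
/-- **The terms of a class which is a norm agree up to the constant.** -/
theorem Setup.Level.LocalOps.class_norm (hw₁ : ∀ u, (w₁ u).comap S.inclKF.toRingHom = u)
    (hh : ∀ w, H3.IsInvKer (h w)) (hhK : ∀ u, H3.IsInvKer (S.slotKer σ w₁ h u))
    (hkF : IsYKernel (yKer h (D.levelOpF σ * heckeWord (D.levelIdeal S.F) l)))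
    (hkK : IsYKernel (yKer (S.slotKer σ w₁ h) (D.levelOpK * (l.map D.bcOp).prod)))
    (hp : S.IsNormPair σ t δ)
    (hsplit : IsSquare ((t : Matrix (Fin 2) (Fin 2) S.K).trace ^ 2 -
      4 * (t : Matrix (Fin 2) (Fin 2) S.K).det) → ∃ a, S.IsSplit t a)
    (hVm : Measurable V)
    (hVK : IsWeight (S.torusK t) (yVol (D.levelIdeal S.K)) (V ∘ D.zK hσ hp.regular))
    (hVF : ∀ w' : InfinitePlace S.K → InfinitePlace S.F,
      (∀ k, (w' k).comap S.inclKF.toRingHom = k) →
        IsWeight (S.torusF t) (yVol (D.levelIdeal S.F)) (V ∘ D.zF hσ hp.regular w'))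
    {L₀ : ℝ}
    (heF : ∀ y, D.termF l h σ δ y ≠ 0 → ∀ α : GL (Fin 2) S.F, L₀ < heightY α y →
      ∃ ν : S.F, (fun j => α 1 j : Fin 2 → S.F) ᵥ*
        ((Matrix.GeneralLinearGroup.map S.inclKF.toRingHom t : GL (Fin 2) S.F) :
          Matrix (Fin 2) (Fin 2) S.F) = ν • (fun j => α 1 j : Fin 2 → S.F))
    (heK : ∀ y, D.termK l h σ w₁ t y ≠ 0 → ∀ α : GL (Fin 2) S.K, L₀ < heightY α y →
      ∃ ν : S.K, (fun j => α 1 j : Fin 2 → S.K) ᵥ* (t : Matrix (Fin 2) (Fin 2) S.K) =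
        ν • (fun j => α 1 j : Fin 2 → S.K))
    (htF : ¬ IsSquare ((t : Matrix (Fin 2) (Fin 2) S.K).trace ^ 2 -
        4 * (t : Matrix (Fin 2) (Fin 2) S.K).det) →
      ∀ y, D.termF l h σ δ y ≠ 0 → y ∈ trunc (D.levelIdeal S.F) L₀)
    (htK : ¬ IsSquare ((t : Matrix (Fin 2) (Fin 2) S.K).trace ^ 2 -
        4 * (t : Matrix (Fin 2) (Fin 2) S.K).det) →
      ∀ y, D.termK l h σ w₁ t y ≠ 0 → y ∈ trunc (D.levelIdeal S.K) L₀)
    {n : ℝ} (hn : L₀ ≤ n) (hn1 : 1 < n)
    (hintF : Integrable ((trunc (D.levelIdeal S.F) (n ^ 3)).indicator (D.termF l h σ δ))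
      (wMeas (yVol (D.levelIdeal S.F)) (V ∘ D.zF hσ hp.regular w₁)))
    (hintK : Integrable ((trunc (D.levelIdeal S.K) n).indicator (D.termK l h σ w₁ t))
      (wMeas (yVol (D.levelIdeal S.K)) (V ∘ D.zK hσ hp.regular))) :
    ∫ y, (trunc (D.levelIdeal S.F) (n ^ 3)).indicator (D.termF l h σ δ) y
        ∂(wMeas (yVol (D.levelIdeal S.F)) (V ∘ D.zF hσ hp.regular w₁)) =
      cfin Λ M * ∫ y, (trunc (D.levelIdeal S.K) n).indicator (D.termK l h σ w₁ t) y
        ∂(wMeas (yVol (D.levelIdeal S.K)) (V ∘ D.zK hσ hp.regular)) := by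
  have hn3 : L₀ ≤ n ^ 3 := hn.trans (le_self_pow₀ hn1.le three_ne_zero)
  by_cases hsq : IsSquare ((t : Matrix (Fin 2) (Fin 2) S.K).trace ^ 2 -
      4 * (t : Matrix (Fin 2) (Fin 2) S.K).det)
  · obtain ⟨a, hs⟩ := hsplit hsq
    rw [Λ.split_F M l hl hs hw₁ hkF hh hp hVm (hVF w₁ hw₁) hVF heF hn3 hn1 hintF,
      Λ.split_K l hl hs hkK hhK hVm hVK heK hn hn1 hintK]
  · have eF : (trunc (D.levelIdeal S.F) (n ^ 3)).indicator (D.termF l h σ δ) = D.termF l h σ δ :=
      Set.indicator_eq_self.mpr fun y hy => trunc_mono hn3 (htF hsq y hy)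
    have eK : (trunc (D.levelIdeal S.K) n).indicator (D.termK l h σ w₁ t) = D.termK l h σ w₁ t :=
      Set.indicator_eq_self.mpr fun y hy => trunc_mono hn (htK hsq y hy)
    rw [eF] at hintF ⊢
    rw [eK] at hintK ⊢
    obtain ⟨h1, h2⟩ := integral_wMeas_toReal (hVF w₁ hw₁) (D.termF l h σ δ)
    obtain ⟨h3, h4⟩ := integral_wMeas_toReal hVK (D.termK l h σ w₁ t)
    rw [h2, h4]
    refine (Λ.integral_termF hσ hw₁ M l hl hh hp (G := fun z => ((V z).toReal : ℂ)) (h1.mp hintF)).trans ?_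
    refine (mul_assoc _ _ _).trans ?_
    exact congrArg (cfin Λ M * ·) (Λ.integral_termK (w₁ := w₁) (hσ := hσ) l hl hp.regular
      (G := fun z => ((V z).toReal : ℂ)) (h3.mp hintK)).symm

include hl M hσ in
/-- **The terms of a class which is not a norm vanish identically.** -/
theorem Setup.Level.LocalOps.class_zero {v₀ : HeightOneSpectrum (𝓞 S.K)}
    (hodd : LT.Classes.OddVal v₀ (Matrix.ProjGenLinGroup.mk t))
    (hno : ¬ ∃ δ : PGL(2, S.F),
      nm (LT.Classes.pGal σ) δ = Classes.pIncl S (Matrix.ProjGenLinGroup.mk t))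
    (y : YSpace (D.levelIdeal S.K)) : D.termK l h σ w₁ t y = 0 := by
  obtain ⟨x, c⟩ := y
  rw [Setup.Level.termK, mk_smul]
  exact mul_eq_zero_of_right _ (finKer_eq_zero_of_not_norm hσ Λ l hl M hodd hno c)

end FermatAgent.LTG

end
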