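import Mathlib
import Fermat.Agent.LT.General.Geom.FibreInt
import Fermat.Agent.LT.Descent.Geom.Elliptic

set_option autoImplicit false

/-!
# Elliptic terms are supported below a fixed height, general input
-/

noncomputable section

open MeasureTheory NumberField IsDedekindDomain
open scoped MatrixGroups ENNReal

namespace FermatAgent.LTG

open Matrix
open FermatAgent.LT (H3 YSpace IsCosetOp heckeWord galY heightY heightY_galY trunc trunc_mono
  exists_high_cusp_fixed exists_smul_of_cross row_ne_zero isSquare_disc_of_row)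

variable {S : Setup} {σ : S.F ≃+* S.F}

theorem Setup.not_isSquare_inclKF (hσ : S.IsGalGen σ) {d : S.K} (hd : ¬ IsSquare d) :
    ¬ IsSquare (S.inclKF d) := by
  rintro ⟨x, hx⟩
  have h2 : σ x * σ x = x * x := by rw [← map_mul, ← hx, hσ.2]
  rcases mul_self_eq_mul_self_iff.mp h2 with h | h
  · obtain ⟨y, rfl⟩ := hσ.exists_of_fixed h
    exact hd ⟨y, S.inclKF.injective (hx.trans (map_mul S.inclKF y y).symm)⟩
  · have h3 := hσ.cube x
    rw [h, map_neg, h, neg_neg, h, neg_eq_iff_add_eq_zero, ← two_mul] at h3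
    have hx0 : x = 0 := (mul_eq_zero.mp h3).resolve_left two_ne_zero
    rw [hx0, mul_zero] at hx
    exact hd ⟨0, S.inclKF.injective (hx.trans (by rw [mul_zero]; exact (map_zero S.inclKF).symm))⟩

variable (D : S.Level) (l : List (HeightOneSpectrum (𝓞 S.F)))
  {h : InfinitePlace S.F → H3 → H3 → ℂ}
  {w₁ : InfinitePlace S.K → InfinitePlace S.F}

theorem Setup.Level.exists_eigen_F (hσ : S.IsGalGen σ) (hh : ∀ w, H3.IsInvKer (h w))
    (hT : IsCosetOp (D.levelOpF σ * heckeWord (D.levelIdeal S.F) l)) :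
    ∃ l₀ : ℝ, ∀ (t : GL (Fin 2) S.K) (δ : GL (Fin 2) S.F), S.IsNormPair σ t δ →
      ∀ y, D.termF l h σ δ y ≠ 0 → ∀ α : GL (Fin 2) S.F, l₀ < heightY α y →
        ∃ ν : S.F, (fun j => α 1 j : Fin 2 → S.F) ᵥ*
          ((Matrix.GeneralLinearGroup.map S.inclKF.toRingHom t : GL (Fin 2) S.F) :
            Matrix (Fin 2) (Fin 2) S.F) = ν • (fun j => α 1 j : Fin 2 → S.F) := by
  obtain ⟨l₀, -, hl₀⟩ := exists_high_cusp_fixed hh hT (τ := galY σ)
    (c := Matrix.GeneralLinearGroup.map σ.symm.toRingHom)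
    (fun γ y => heightY_galY (D.levelIdeal_ne_bot S.F) (D.levelIdeal_map σ) γ y)
  refine ⟨l₀, fun t δ hn y hy α hα => ?_⟩
  have hc := hl₀ δ y hy α hα
  set r : Fin 2 → S.F := fun j => α 1 j
  set G := fun M : GL (Fin 2) S.F => Matrix.GeneralLinearGroup.map σ.toRingHom M
  -- the row is moved to a multiple of its conjugate
  obtain ⟨μ, hμ⟩ : ∃ μ : S.F, r ᵥ* (δ : Matrix (Fin 2) (Fin 2) S.F) = μ • (σ ∘ r) := by
    refine exists_smul_of_cross (fun h0 => row_ne_zero α (funext fun j => ?_)) ?_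
    · exact σ.injective ((congrFun h0 j).trans (map_zero σ).symm)
    · have hrow : ∀ j, (α * δ) 1 j = (r ᵥ* (δ : Matrix (Fin 2) (Fin 2) S.F)) j := fun j => by
        simp [r, Matrix.vecMul, dotProduct, Matrix.mul_apply]
      have key : ∀ (M : GL (Fin 2) S.F) (i j : Fin 2),
          σ ((Matrix.GeneralLinearGroup.map σ.symm.toRingHom M) i j) = M i j := fun M i j =>
        σ.apply_symm_apply _
      have h1 := congrArg σ hc
      rw [map_sub, map_zero, map_mul σ (α 1 0), map_mul σ (α 1 1), key, key, hrow, hrow] at h1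
      exact h1
  have hμ' : ∀ (M : GL (Fin 2) S.F) (s : Fin 2 → S.F),
      (σ ∘ s) ᵥ* (G M : Matrix (Fin 2) (Fin 2) S.F) =
        σ ∘ (s ᵥ* (M : Matrix (Fin 2) (Fin 2) S.F)) := fun M s => by
    funext j
    simp [G, Matrix.vecMul, dotProduct, map_mul]
  have hsm : ∀ (a : S.F) (s : Fin 2 → S.F), σ ∘ (a • s) = σ a • (σ ∘ s) := fun a s =>
    funext fun j => map_mul σ _ _
  have h3 : σ ∘ (σ ∘ (σ ∘ r)) = r := funext fun j => hσ.cube _
  have heig : r ᵥ* ((Matrix.GeneralLinearGroup.map S.inclKF.toRingHom t : GL (Fin 2) S.F) :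
      Matrix (Fin 2) (Fin 2) S.F) = (μ * σ μ * σ (σ μ)) • r := by
    rw [← hn.norm, Units.val_mul, Units.val_mul, ← Matrix.vecMul_vecMul, ← Matrix.vecMul_vecMul, hμ,
      Matrix.smul_vecMul, hμ', hμ, hsm, Matrix.smul_vecMul, Matrix.smul_vecMul, hμ', hμ', hμ, hsm,
      hsm, h3, smul_smul, smul_smul]
  exact ⟨_, heig⟩

theorem Setup.Level.exists_trunc_F (hσ : S.IsGalGen σ) (hh : ∀ w, H3.IsInvKer (h w))
    (hT : IsCosetOp (D.levelOpF σ * heckeWord (D.levelIdeal S.F) l)) :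
    ∃ l₀ : ℝ, ∀ (t : GL (Fin 2) S.K) (δ : GL (Fin 2) S.F), S.IsNormPair σ t δ →
      ¬ IsSquare ((t : Matrix (Fin 2) (Fin 2) S.K).trace ^ 2 -
        4 * (t : Matrix (Fin 2) (Fin 2) S.K).det) →
      ∀ y, D.termF l h σ δ y ≠ 0 → y ∈ trunc (D.levelIdeal S.F) l₀ := by
  obtain ⟨l₀, hl₀⟩ := D.exists_eigen_F l hσ hh hT
  refine ⟨l₀, fun t δ hn hns y hy α => not_lt.mp fun hα => ?_⟩
  obtain ⟨ν, heig⟩ := hl₀ t δ hn y hy α hα
  refine S.not_isSquare_inclKF hσ hns ?_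
  have h4 := isSquare_disc_of_row _ (row_ne_zero α) heig
  convert h4 using 1
  rw [map_sub, map_pow, map_mul, map_ofNat]
  rfl

theorem Setup.Level.exists_eigen_K (hh : ∀ u, H3.IsInvKer (S.slotKer σ w₁ h u))
    (hT : IsCosetOp (D.levelOpK * (l.map D.bcOp).prod)) :
    ∃ l₀ : ℝ, ∀ (t : GL (Fin 2) S.K) (y : YSpace (D.levelIdeal S.K)),
      D.termK l h σ w₁ t y ≠ 0 → ∀ α : GL (Fin 2) S.K, l₀ < heightY α y →
        ∃ ν : S.K, (fun j => α 1 j : Fin 2 → S.K) ᵥ* (t : Matrix (Fin 2) (Fin 2) S.K) =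
          ν • (fun j => α 1 j : Fin 2 → S.K) := by
  obtain ⟨l₀, -, hl₀⟩ := exists_high_cusp_fixed hh hT (τ := id) (c := id) fun γ y => rfl
  refine ⟨l₀, fun t y hy α hα => exists_smul_of_cross (row_ne_zero α) ?_⟩
  simpa [Matrix.vecMul, dotProduct, Matrix.mul_apply] using hl₀ t y hy α hα

theorem Setup.Level.exists_trunc_K (hh : ∀ u, H3.IsInvKer (S.slotKer σ w₁ h u))
    (hT : IsCosetOp (D.levelOpK * (l.map D.bcOp).prod)) :
    ∃ l₀ : ℝ, ∀ t : GL (Fin 2) S.K,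
      ¬ IsSquare ((t : Matrix (Fin 2) (Fin 2) S.K).trace ^ 2 -
        4 * (t : Matrix (Fin 2) (Fin 2) S.K).det) →
      ∀ y, D.termK l h σ w₁ t y ≠ 0 → y ∈ trunc (D.levelIdeal S.K) l₀ := by
  obtain ⟨l₀, hl₀⟩ := D.exists_eigen_K l hh hT
  refine ⟨l₀, fun t hns y hy α => not_lt.mp fun hα => ?_⟩
  obtain ⟨ν, hν⟩ := hl₀ t y hy α hα
  exact hns (isSquare_disc_of_row _ (row_ne_zero α) hν)

/-- The bounds beyond which the truncations see only the fixed lines. -/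
structure Setup.Level.TermBounds (D : S.Level) (σ : S.F ≃+* S.F)
    (w₁ : InfinitePlace S.K → InfinitePlace S.F) (h : InfinitePlace S.F → H3 → H3 → ℂ)
    (l : List (HeightOneSpectrum (𝓞 S.F))) (L₀ : ℝ) : Prop where
  eigenF : ∀ (t : GL (Fin 2) S.K) (δ : GL (Fin 2) S.F), S.IsNormPair σ t δ →
    ∀ y, D.termF l h σ δ y ≠ 0 → ∀ α : GL (Fin 2) S.F, L₀ < heightY α y →
      ∃ ν : S.F, (fun j => α 1 j : Fin 2 → S.F) ᵥ*
        ((Matrix.GeneralLinearGroup.map S.inclKF.toRingHom t : GL (Fin 2) S.F) :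
          Matrix (Fin 2) (Fin 2) S.F) = ν • (fun j => α 1 j : Fin 2 → S.F)
  eigenK : ∀ (t : GL (Fin 2) S.K) (y : YSpace (D.levelIdeal S.K)),
    D.termK l h σ w₁ t y ≠ 0 → ∀ α : GL (Fin 2) S.K, L₀ < heightY α y →
      ∃ ν : S.K, (fun j => α 1 j : Fin 2 → S.K) ᵥ* (t : Matrix (Fin 2) (Fin 2) S.K) =
        ν • (fun j => α 1 j : Fin 2 → S.K)
  truncF : ∀ (t : GL (Fin 2) S.K) (δ : GL (Fin 2) S.F), S.IsNormPair σ t δ →
    ¬ IsSquare ((t : Matrix (Fin 2) (Fin 2) S.K).trace ^ 2 -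
      4 * (t : Matrix (Fin 2) (Fin 2) S.K).det) →
    ∀ y, D.termF l h σ δ y ≠ 0 → y ∈ trunc (D.levelIdeal S.F) L₀
  truncK : ∀ t : GL (Fin 2) S.K,
    ¬ IsSquare ((t : Matrix (Fin 2) (Fin 2) S.K).trace ^ 2 -
      4 * (t : Matrix (Fin 2) (Fin 2) S.K).det) →
    ∀ y, D.termK l h σ w₁ t y ≠ 0 → y ∈ trunc (D.levelIdeal S.K) L₀

theorem Setup.Level.exists_termBounds (hσ : S.IsGalGen σ) (hh : ∀ w, H3.IsInvKer (h w))
    (hhK : ∀ u, H3.IsInvKer (S.slotKer σ w₁ h u))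
    (hTF : IsCosetOp (D.levelOpF σ * heckeWord (D.levelIdeal S.F) l))
    (hTK : IsCosetOp (D.levelOpK * (l.map D.bcOp).prod)) :
    ∃ L₀ : ℝ, 1 < L₀ ∧ D.TermBounds σ w₁ h l L₀ := by
  obtain ⟨a, ha⟩ := D.exists_eigen_F l hσ hh hTF
  obtain ⟨b, hb⟩ := D.exists_eigen_K (w₁ := w₁) l hhK hTK
  obtain ⟨c, hc⟩ := D.exists_trunc_F l hσ hh hTF
  obtain ⟨d, hd⟩ := D.exists_trunc_K (w₁ := w₁) l hhK hTK
  refine ⟨max (max a b) (max (max c d) 2), ?_,
    fun t δ hn y hy α hα => ha t δ hn y hy α (lt_of_le_of_lt (by simp) hα),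
    fun t y hy α hα => hb t y hy α (lt_of_le_of_lt (by simp) hα),
    fun t δ hn hns y hy => trunc_mono (by simp) (hc t δ hn hns y hy),
    fun t hns y hy => trunc_mono (by simp) (hd t hns y hy)⟩
  exact lt_max_of_lt_right (lt_max_of_lt_right one_lt_two)

end FermatAgent.LTG

end
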