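import Mathlib
import Fermat.Agent.LT.General.Geom.ClassTerms
import Fermat.Agent.LT.General.Geom.Elliptic
import Fermat.Agent.LT.General.Geom.Normalise
import Fermat.Agent.LT.General.Geom.Parity
import Fermat.Agent.LT.Descent.Geom.Main

set_option autoImplicit false

/-!
# The truncated identity of one word, general input
-/

noncomputable section

open MeasureTheory NumberField IsDedekindDomain Filter
open scoped MatrixGroups ENNReal Topology

namespace FermatAgent.LTG

open Matrix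
open FermatAgent.LT (H3 YSpace yVol yKer galY galY_smul galPlace kerSum heckeWord trunc
  measurableSet_trunc smul_mem_trunc_iff lintegral_trunc_lt_top isBoxMap_galY isBoxMap_id IsYKernel
  isYKernel_yKer IsCosetOp isCosetOp_heckeOp isCosetOp_list_prod integral_classes classTerm
  finite_quotient_of_relIndex)
open FermatAgent.LT.Weight (wMeas)
open FermatAgent.LT.Classes (pGal OddVal oddVal_conj Cls IsReg isReg_mk pRatio torus torus_mk
  torus_le_centralizer twStab mem_twStab)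
open FermatAgent.LT.TF (nm)

variable {S : Setup} {D : S.Level} {σ : S.F ≃+* S.F} {hσ : S.IsGalGen σ} (Λ : D.LocalOps σ)
  (M : Setup.Level.FixedMatch Λ hσ) {w₁ : InfinitePlace S.K → InfinitePlace S.F}

open Classical in
include M in
/-- **The truncated identity of one word.** -/
theorem Setup.Level.LocalOps.trunc_identity (hw₁ : ∀ u, (w₁ u).comap S.inclKF.toRingHom = u)
    {𝔉F₀ : Set (YSpace (D.levelIdeal S.F))} {𝔉K₀ : Set (YSpace (D.levelIdeal S.K))}
    (hF₀ : IsFundamentalDomain PGL(2, S.F) 𝔉F₀ (yVol (D.levelIdeal S.F)))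
    (hmF : MeasurableSet 𝔉F₀)
    (hK₀ : IsFundamentalDomain PGL(2, S.K) 𝔉K₀ (yVol (D.levelIdeal S.K)))
    (hmK : MeasurableSet 𝔉K₀)
    {h : InfinitePlace S.F → H3 → H3 → ℂ} (hh : ∀ u, H3.IsInvKer (h u))
    {l : List (HeightOneSpectrum (𝓞 S.F))} (hl : S.GoodWord l)
    {w : HeightOneSpectrum (𝓞 S.F)} (hw : galPlace σ w ≠ w)
    (hv : (S.m : 𝓞 S.K) ∉ (S.underK w).asIdeal)
    (hodd : Odd (l.countP fun u => S.underK u = S.underK w)) :
    ∃ L₀ : ℝ, ∀ n : ℝ, L₀ ≤ n →
      ∫ y in 𝔉F₀, (trunc (D.levelIdeal S.F) (n ^ 3)).indicator (fun y =>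
          kerSum (yKer h (D.levelOpF σ * heckeWord _ l)) y (galY σ y)) y
          ∂(yVol (D.levelIdeal S.F)) =
        cfin Λ M * ∫ y in 𝔉K₀, (trunc (D.levelIdeal S.K) n).indicator (fun y =>
          kerSum (yKer (S.slotKer σ w₁ h) (D.levelOpK * (l.map D.bcOp).prod)) y y) y
          ∂(yVol (D.levelIdeal S.K)) := by
  have hbotF := D.levelIdeal_ne_bot S.F
  have hbotK := D.levelIdeal_ne_bot S.K
  have : Fact (D.levelIdeal S.F ≠ ⊥) := ⟨hbotF⟩
  have : Fact (D.levelIdeal S.K ≠ ⊥) := ⟨hbotK⟩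
  have hl1 : ∀ u ∈ l, (S.m : 𝓞 S.F) ∉ u.asIdeal := fun u hu => (hl u hu).1
  have hhK : ∀ u, H3.IsInvKer (S.slotKer σ w₁ h u) := fun u => ((hh _).kConv (hh _)).kConv (hh _)
  have hTF : IsCosetOp (D.levelOpF σ * heckeWord (D.levelIdeal S.F) l) := by
    refine Λ.cosetF.mul (isCosetOp_list_prod _ ?_)
    intro T hT
    obtain ⟨u, hu, rfl⟩ := List.mem_map.mp hT
    exact isCosetOp_heckeOp hbotF (D.not_levelIdeal_le (hl1 u hu))
  have hTK : IsCosetOp (D.levelOpK * (l.map D.bcOp).prod) := by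
    refine Λ.cosetK.mul (isCosetOp_list_prod _ ?_)
    intro T hT
    obtain ⟨u, hu, rfl⟩ := List.mem_map.mp hT
    exact isCosetOp_heckeOp hbotK (D.not_levelIdeal_le fun hm =>
      hl1 u hu ((S.natCast_mem_underK u _).mp hm))
  set kF := yKer h (D.levelOpF σ * heckeWord (D.levelIdeal S.F) l) with hkFdef
  set kK := yKer (S.slotKer σ w₁ h) (D.levelOpK * (l.map D.bcOp).prod) with hkKdef
  have hkF : IsYKernel kF := isYKernel_yKer hh hTF
  have hkK : IsYKernel kK := isYKernel_yKer hhK hTK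
  have hbox := isBoxMap_galY hbotF (D.levelIdeal_map σ)
  have hτ : ∀ (g : PGL(2, S.F)) (y : YSpace (D.levelIdeal S.F)),
      galY σ (g • y) = pGal σ g • galY σ y := fun g y => by
    induction g using ProjGenLinGroup.induction_on with | mk g =>
    exact galY_smul (D.levelIdeal_map σ) _ y
  obtain ⟨L₀, hL₀, hB⟩ := D.exists_termBounds (w₁ := w₁) l hσ hh hhK hTF hTK
  -- the representatives
  have hex : ∀ c : Cls (S.underK w), ∃ (x : PGL(2, S.K)) (g : GL (Fin 2) S.K),
      ProjGenLinGroup.mk g = x⁻¹ * c.rep * x ∧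
      (g : Matrix (Fin 2) (Fin 2) S.K).trace ^ 2 ≠ 4 * (g : Matrix (Fin 2) (Fin 2) S.K).det ∧
      (IsSquare ((g : Matrix (Fin 2) (Fin 2) S.K).trace ^ 2 -
          4 * (g : Matrix (Fin 2) (Fin 2) S.K).det) → ∃ a, S.IsSplit g a) ∧
      ∀ hc : (∃ δ, nm (pGal σ) δ = Classes.pIncl S c.rep), ∃ d : GL (Fin 2) S.F,
        S.IsNormPair σ g d ∧
          ProjGenLinGroup.mk d = (Classes.pIncl S x)⁻¹ * hc.choose * pGal σ (Classes.pIncl S x) := fun c => by
    obtain ⟨x, g, h1, h2, h3, h4⟩ := S.exists_normal_rep hσ (Classes.isReg_of_oddVal c.oddVal)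
      (if hc : ∃ δ, nm (pGal σ) δ = Classes.pIncl S c.rep then hc.choose else 1)
    refine ⟨x, g, h1, h2, h3, fun hc => ?_⟩
    rw [dif_pos hc] at h4
    exact h4 hc.choose_spec
  choose x g hg hreg hsplit hnorm using hex
  choose d hp hd using fun c : Classes.NCls σ (S.underK w) => hnorm c.1 c.2
  obtain ⟨CK₀, hCK₀⟩ := LT.Classes.exists_classSys_plain (S.underK w)
  obtain ⟨CF₀, hCF₀⟩ := S.exists_classSys_twisted hσ w
  set CK := CK₀.conjBy x
  set CF := CF₀.conjBy fun c => Classes.pIncl S (x c.1)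
  have hrK : ∀ c, CK.rep c = ProjGenLinGroup.mk (g c) := fun c => by
    show (x c)⁻¹ * CK₀.rep c * x c = _
    rw [hCK₀, hg]
  have hrF : ∀ c, CF.rep c = ProjGenLinGroup.mk (d c) := fun c => by
    show (Classes.pIncl S (x c.1))⁻¹ * CF₀.rep c * pGal σ (Classes.pIncl S (x c.1)) = _
    rw [hCF₀, hd]
    rfl
  have hregP : ∀ c, IsReg (ProjGenLinGroup.mk (g c)) := fun c => isReg_mk.mpr (hreg c)
  have htK : ∀ c, S.torusK (g c) = torus (ProjGenLinGroup.mk (g c)) := fun c => (torus_mk _).symm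
  have hnm : ∀ c : Classes.NCls σ (S.underK w), nm (pGal σ) (ProjGenLinGroup.mk (d c)) =
      Classes.pIncl S (ProjGenLinGroup.mk (g c.1)) := fun c => by
    rw [Classes.nm_mk, Classes.pIncl_mk]
    exact congrArg ProjGenLinGroup.mk (hp c).norm
  have hone : ∀ r : PGL(2, S.K),
      twStab (1 : MulAut PGL(2, S.K)) r = Subgroup.centralizer {r} := fun r => by
    ext η
    rw [mem_twStab, Subgroup.mem_centralizer_singleton_iff, MulAut.one_apply, mul_assoc,
      inv_mul_eq_iff_eq_mul, eq_comm]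
  have hidx : ∀ c, (S.torusK (g c)).relIndex (twStab (1 : MulAut PGL(2, S.K)) (CK.rep c)) =
      if pRatio (ProjGenLinGroup.mk (g c)) = 0 then 2 else 1 := fun c => by
    rw [hrK, hone, htK, Classes.relIndex_torus (hregP c)]
  have hidxF : ∀ c : Classes.NCls σ (S.underK w),
      (S.torusF (g c.1)).relIndex (twStab (pGal σ) (CF.rep c)) =
        if pRatio (ProjGenLinGroup.mk (g c.1)) = 0 then 2 else 1 := fun c => by
    rw [hrF, Setup.torusF, htK, show pInclM S = Classes.pIncl S from rfl, Classes.relIndex_twStab hσ (hregP c.1) (hnm c),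
      Classes.relIndex_torus (hregP c.1)]
  choose V hVm hVK hVF using fun c => D.exists_torusWeight hσ (hreg c)
  refine ⟨L₀, fun n hn => ?_⟩
  have hn1 : 1 < n := hL₀.trans_le hn
  -- the two sums over the classes
  obtain ⟨hiF, hsF⟩ := integral_classes hbotF hkF hbox.measurable hτ CF
    (fun γ hγ y => by_contra fun hne => hγ (oddVal_of_kerF Λ l hl1 hσ hw hv hodd hne))
    hF₀ hmF (measurableSet_trunc hbotF (n ^ 3)) (fun η y => smul_mem_trunc_iff η)
    (lintegral_trunc_lt_top hbotF hkF hbox hF₀ _) (fun c => S.torusF (g c.1))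
    (fun c => by rw [hrF, Setup.torusF, htK, show pInclM S = Classes.pIncl S from rfl]; exact Classes.map_torus_le_twStab hσ (hregP c.1) (hnm c))
    (fun c => finite_quotient_of_relIndex (hidxF c) (by split_ifs <;> decide))
    (fun c => V c.1 ∘ D.zF hσ (hreg c.1) w₁) (fun c => hVF c.1 w₁ hw₁)
  obtain ⟨hiK, hsK⟩ := integral_classes hbotK hkK measurable_id (τ₀ := id) (fun _ _ => rfl) CK
    (fun γ hγ y => by_contra fun hne => hγ (oddVal_of_kerK Λ l hl1 hv hodd hne))
    hK₀ hmK (measurableSet_trunc hbotK n) (fun η y => smul_mem_trunc_iff η)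
    (lintegral_trunc_lt_top hbotK hkK isBoxMap_id hK₀ _) (fun c => S.torusK (g c))
    (fun c => by rw [hrK, hone, htK]; exact torus_le_centralizer)
    (fun c => finite_quotient_of_relIndex (hidx c) (by split_ifs <;> decide))
    (fun c => V c ∘ D.zK hσ (hreg c)) (fun c => hVK c)
  have eF : ∀ c, classTerm kF (galY σ) (trunc (D.levelIdeal S.F) (n ^ 3)) (CF.rep c) =
      (trunc (D.levelIdeal S.F) (n ^ 3)).indicator (D.termF l h σ (d c)) := fun c => by
    rw [hrF]; rfl
  have eK : ∀ c, classTerm kK id (trunc (D.levelIdeal S.K) n) (CK.rep c) =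
      (trunc (D.levelIdeal S.K) n).indicator (D.termK l h σ w₁ (g c)) := fun c => by
    rw [hrK]; rfl
  simp only [id_eq] at hsK
  refine hsF.trans (Eq.trans ?_ (congrArg (cfin Λ M * ·) hsK.symm))
  set A : Cls (S.underK w) → ℂ := fun c =>
    (((S.torusK (g c)).relIndex (twStab (1 : MulAut PGL(2, S.K)) (CK.rep c)) : ℕ) : ℂ)⁻¹ *
      ∫ y, classTerm kK id (trunc (D.levelIdeal S.K) n) (CK.rep c) y
        ∂(wMeas (yVol (D.levelIdeal S.K)) (V c ∘ D.zK hσ (hreg c)))
  have hA : Function.support A ⊆ {c | ∃ δ, nm (pGal σ) δ = Classes.pIncl S c.rep} := fun c hc => by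
    by_contra hno
    refine hc (mul_eq_zero_of_right _ ?_)
    rw [eK]
    refine integral_eq_zero_of_ae (Eventually.of_forall fun y => ?_)
    refine Set.indicator_apply_eq_zero.mpr fun _ => Λ.class_zero M l hl
      (by rw [hg]; simpa using (oddVal_conj (S.underK w) (x c)⁻¹ c.rep).mpr c.oddVal) ?_ y
    rintro ⟨δ, hδ⟩
    refine hno ⟨Classes.pIncl S (x c) * δ * (pGal σ (Classes.pIncl S (x c)))⁻¹, ?_⟩
    have e := FermatAgent.LT.TF.nm_conj (Classes.pGal_three hσ) (Classes.pIncl S (x c))⁻¹ δ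
    rw [inv_inv, map_inv] at e
    rw [e, hδ, hg, ← map_inv, ← map_mul, ← map_mul]
    exact congrArg _ (by group)
  rw [← tsum_subtype_eq_of_support_subset hA, ← tsum_mul_left]
  refine tsum_congr fun c : Classes.NCls σ (S.underK w) => ?_
  show _ = cfin Λ M * A c.1
  simp only [A]
  rw [hidxF, hidx, eF, eK, mul_left_comm (cfin Λ M)]
  congr 1
  exact Λ.class_norm M l hl hw₁ hh hhK hkF hkK (hp c) (hsplit c.1) (hVm c.1) (hVK c.1) (hVF c.1)
    (hB.eigenF _ _ (hp c)) (hB.eigenK _) (fun hns => hB.truncF _ _ (hp c) hns)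
    (fun hns => hB.truncK _ hns) hn hn1 (by rw [← eF]; exact hiF c) (by rw [← eK]; exact hiK c.1)

end FermatAgent.LTG

end
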