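import Mathlib
import Fermat.Agent.LT.General.Geom.WordTrace
import Fermat.Agent.LT.General.Spectral.ComboOps

set_option autoImplicit false

/-!
# The geometric identity for combinations of matched words

The combination alone is bounded: the truncated identities of the words are added first, with the
truncation of `F` at the cube of that of `K`, and then both sides exhaust.
-/

noncomputable section

open MeasureTheory NumberField IsDedekindDomain Filter
open scoped MatrixGroups ENNReal Topology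

namespace FermatAgent.LTG

open FermatAgent.LT (H3 YSpace yVol galY galY_smul galPGL kerSum trunc measurableSet_trunc
  lintegral_trunc_lt_top IsBoxMap isBoxMap_galY isBoxMap_id IsYKernel exists_trunc_limit
  measurable_ySmul measurable_kernel_move)

theorem integrable_trunc_kerSum {L : Type*} [Field L] [NumberField L] [IsTotallyComplex L]
    {𝔫 : Ideal (𝓞 L)} (h𝔫 : 𝔫 ≠ ⊥) {k : YSpace 𝔫 → YSpace 𝔫 → ℂ} (hk : IsYKernel k)
    {τ : YSpace 𝔫 → YSpace 𝔫} {c : PGL(2, L) → PGL(2, L)}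
    {p : InfinitePlace L → InfinitePlace L} {q : LT.Cosets 𝔫 → LT.Cosets 𝔫}
    (hτ : IsBoxMap τ c p q) {𝔉 : Set (YSpace 𝔫)}
    (hF : IsFundamentalDomain PGL(2, L) 𝔉 (yVol 𝔫)) (l : ℝ) :
    Integrable ((trunc 𝔫 l).indicator fun y => kerSum k y (τ y)) ((yVol 𝔫).restrict 𝔉) := by
  have : Fact (𝔫 ≠ ⊥) := ⟨h𝔫⟩
  refine ⟨((Measurable.tsum fun γ => measurable_kernel_move hk
    ((measurable_ySmul h𝔫 γ).comp hτ.measurable)).indicator
      (measurableSet_trunc h𝔫 l)).aestronglyMeasurable, ?_⟩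
  rw [HasFiniteIntegral]
  refine lt_of_le_of_lt (lintegral_mono fun y => ?_) (lintegral_trunc_lt_top h𝔫 hk hτ hF l)
  by_cases hy : y ∈ trunc 𝔫 l
  · rw [Set.indicator_of_mem hy, Set.indicator_of_mem hy]
    exact enorm_tsum_le_tsum_enorm
  · simp [Set.indicator_of_notMem hy]

variable {S : Setup} {D : S.Level} {σ : S.F ≃+* S.F} {hσ : S.IsGalGen σ} {Λ : D.LocalOps σ}
  (M : Setup.Level.FixedMatch Λ hσ) {w₁ : InfinitePlace S.K → InfinitePlace S.F}

include hσ in
/-- The truncated identity of a combination. -/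
theorem Setup.Level.FixedMatch.trunc_identity_combo
    (hw₁ : ∀ u, (w₁ u).comap S.inclKF.toRingHom = u)
    {𝔉F₀ : Set (YSpace (D.levelIdeal S.F))} {𝔉K₀ : Set (YSpace (D.levelIdeal S.K))}
    (hF₀ : IsFundamentalDomain PGL(2, S.F) 𝔉F₀ (yVol (D.levelIdeal S.F)))
    (hmF : MeasurableSet 𝔉F₀)
    (hK₀ : IsFundamentalDomain PGL(2, S.K) 𝔉K₀ (yVol (D.levelIdeal S.K)))
    (hmK : MeasurableSet 𝔉K₀)
    {v : HeightOneSpectrum (𝓞 S.K)} (hv : (S.m : 𝓞 S.K) ∉ v.asIdeal)
    (hdeg : ∀ w, S.underK w = v → Ideal.absNorm w.asIdeal = Ideal.absNorm v.asIdeal) :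
    ∀ A : Combo S, (∀ x ∈ A, Odd (x.2.countOver v)) → ∀ᶠ n : ℝ in atTop,
      ∫ y in 𝔉F₀, (trunc (D.levelIdeal S.F) (n ^ 3)).indicator
          (fun y => kerSum (A.kerF D σ) y (galY σ y)) y ∂(yVol (D.levelIdeal S.F)) =
        cfin Λ M * ∫ y in 𝔉K₀, (trunc (D.levelIdeal S.K) n).indicator
          (fun y => kerSum (A.kerK D σ w₁) y y) y ∂(yVol (D.levelIdeal S.K)) := by
  obtain ⟨w, rfl, hw⟩ := S.exists_moved_over hσ hv hdeg
  intro A
  induction A with
  | nil =>
    intro _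
    refine Eventually.of_forall fun n => ?_
    simp [Combo.kerF_nil, Combo.kerK_nil, kerSum]
  | cons p A ih =>
    intro hodd
    obtain ⟨L₀, hL₀⟩ := Λ.trunc_identity M hw₁ hF₀ hmF hK₀ hmK p.2.inv p.2.good hw hv
      (hodd p List.mem_cons_self)
    filter_upwards [eventually_ge_atTop L₀, ih fun x hx => hodd x (List.mem_cons_of_mem _ hx)]
      with n hn hA
    have hbF := isBoxMap_galY (D.levelIdeal_ne_bot S.F) (D.levelIdeal_map σ)
    have iF := integrable_trunc_kerSum (D.levelIdeal_ne_bot S.F) (p.2.isYKernel_kerF (D := D) (σ := σ))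
      hbF hF₀ (n ^ 3)
    have iF' := integrable_trunc_kerSum (D.levelIdeal_ne_bot S.F) (Combo.isYKernel_kerF D σ A)
      hbF hF₀ (n ^ 3)
    have iK := integrable_trunc_kerSum (D.levelIdeal_ne_bot S.K)
      (p.2.isYKernel_kerK (D := D) (σ := σ) (w₁ := w₁)) isBoxMap_id hK₀ n
    have iK' := integrable_trunc_kerSum (D.levelIdeal_ne_bot S.K) (Combo.isYKernel_kerK D σ w₁ A)
      isBoxMap_id hK₀ n
    simp only [id_eq] at iK iK'
    have eF : ∀ y z, kerSum (Combo.kerF D σ (p :: A)) y z =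
        (p.1 : ℂ) * kerSum (p.2.kerF D σ) y z + kerSum (Combo.kerF D σ A) y z := fun y z => by
      rw [Combo.kerF_cons, kerSum_add (isYKernel_smul p.2.isYKernel_kerF _)
        (Combo.isYKernel_kerF D σ A), kerSum_smul]
    have eK : ∀ y z, kerSum (Combo.kerK D σ w₁ (p :: A)) y z =
        (p.1 : ℂ) * kerSum (p.2.kerK D σ w₁) y z + kerSum (Combo.kerK D σ w₁ A) y z := fun y z => by
      rw [Combo.kerK_cons, kerSum_add (isYKernel_smul p.2.isYKernel_kerK _)
        (Combo.isYKernel_kerK D σ w₁ A), kerSum_smul]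
    simp only [eF, eK, Set.indicator_add, Set.indicator_const_mul]
    rw [integral_add (iF.const_mul _) iF', integral_add (iK.const_mul _) iK', integral_const_mul,
      integral_const_mul, hA]
    rw [show ∫ y in 𝔉F₀, (trunc (D.levelIdeal S.F) (n ^ 3)).indicator
        (fun y => kerSum (p.2.kerF D σ) y (galY σ y)) y ∂(yVol (D.levelIdeal S.F)) =
        cfin Λ M * ∫ y in 𝔉K₀, (trunc (D.levelIdeal S.K) n).indicator
          (fun y => kerSum (p.2.kerK D σ w₁) y y) y ∂(yVol (D.levelIdeal S.K)) from hL₀ n hn]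
    ring

/-- **The geometric identity.** For a combination of matched words, all odd at one good place of
`K` split completely in `F`, with bounded sums over both groups, the twisted trace on `F` is a fixed
multiple of the trace on `K`. -/
theorem trace_identity_of_match (S : Setup) (D : S.Level) (σ : S.F ≃+* S.F) (hσ : S.IsGalGen σ)
    (w₁ : InfinitePlace S.K → InfinitePlace S.F)
    (hw₁ : ∀ u, (w₁ u).comap S.inclKF.toRingHom = u)
    (Λ : D.LocalOps σ) (M : Setup.Level.FixedMatch Λ hσ)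
    {𝔉F : Set (YSpace (D.levelIdeal S.F))} {𝔉K : Set (YSpace (D.levelIdeal S.K))}
    (hF : IsFundamentalDomain PGL(2, S.F) 𝔉F (yVol (D.levelIdeal S.F)))
    (_hFfin : yVol (D.levelIdeal S.F) 𝔉F < ⊤)
    (hK : IsFundamentalDomain PGL(2, S.K) 𝔉K (yVol (D.levelIdeal S.K)))
    (_hKfin : yVol (D.levelIdeal S.K) 𝔉K < ⊤) :
    ∃ c : ℂ, ∀ A : Combo S,
      (∃ v : HeightOneSpectrum (𝓞 S.K), (S.m : 𝓞 S.K) ∉ v.asIdeal ∧
        (∀ w, S.underK w = v → Ideal.absNorm w.asIdeal = Ideal.absNorm v.asIdeal) ∧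
        ∀ x ∈ A, Odd (x.2.countOver v)) →
      (∃ C : ℝ, ∀ y z, ‖kerSum (A.kerF D σ) y z‖ ≤ C) →
      (∃ C : ℝ, ∀ y z, ‖kerSum (A.kerK D σ w₁) y z‖ ≤ C) →
      ∫ y in 𝔉F, kerSum (A.kerF D σ) y (galY σ y) ∂(yVol (D.levelIdeal S.F)) =
        c * ∫ y in 𝔉K, kerSum (A.kerK D σ w₁) y y ∂(yVol (D.levelIdeal S.K)) := by
  refine ⟨cfin Λ M, fun A hA hbF hbK => ?_⟩
  obtain ⟨v, hv, hdeg, hodd⟩ := hA
  have hbox := isBoxMap_galY (D.levelIdeal_ne_bot S.F) (D.levelIdeal_map σ)
  obtain ⟨F₀, hmF, hF₀, hlimF⟩ := exists_trunc_limit (D.levelIdeal_ne_bot S.F)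
    (Combo.isYKernel_kerF D σ A) hbox.measurable (galY_smul (D.levelIdeal_map σ)) hbF hF
  obtain ⟨K₀, hmK, hK₀, hlimK⟩ := exists_trunc_limit (D.levelIdeal_ne_bot S.K)
    (Combo.isYKernel_kerK D σ w₁ A) measurable_id (c := id) (fun _ _ => rfl) hbK hK
  have h3 : Tendsto (fun n : ℕ => n ^ 3) atTop atTop := tendsto_pow_atTop three_ne_zero
  refine tendsto_nhds_unique_of_eventuallyEq (hlimF.comp h3) (hlimK.const_mul (cfin Λ M)) ?_
  filter_upwards [tendsto_natCast_atTop_atTop.eventually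
    (M.trunc_identity_combo hw₁ hF₀ hmF hK₀ hmK hv hdeg A hodd)] with n hn
  simp only [Function.comp_apply, Nat.cast_pow]
  exact hn

end FermatAgent.LTG

end
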