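import Mathlib
import Fermat.Agent.LT.General.Geom.Trace
import Fermat.Agent.LT.General.Geom.Local.Fixed.Main

set_option autoImplicit false

/-!
# The geometric identity of the twisted trace formula, general input
-/

noncomputable section

open MeasureTheory NumberField IsDedekindDomain
open scoped MatrixGroups

namespace FermatAgent.LTG

open FermatAgent.LT (YSpace yVol galY kerSum)

/-- **The geometric identity** for a level: on combinations of matched words with bounded sums over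
the groups, all odd at one good split place, the twisted trace on `F` is a fixed multiple of the
trace on `K`. -/
theorem trace_identity (S : Setup) (D : S.Level) (σ : S.F ≃+* S.F) (hσ : S.IsGalGen σ)
    (w₁ : InfinitePlace S.K → InfinitePlace S.F)
    (hw₁ : ∀ u, (w₁ u).comap S.inclKF.toRingHom = u)
    {𝔉F : Set (YSpace (D.levelIdeal S.F))} {𝔉K : Set (YSpace (D.levelIdeal S.K))}
    (hF : IsFundamentalDomain PGL(2, S.F) 𝔉F (yVol (D.levelIdeal S.F)))
    (hFfin : yVol (D.levelIdeal S.F) 𝔉F < ⊤)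
    (hK : IsFundamentalDomain PGL(2, S.K) 𝔉K (yVol (D.levelIdeal S.K)))
    (hKfin : yVol (D.levelIdeal S.K) 𝔉K < ⊤) :
    ∃ c : ℂ, ∀ A : Combo S,
      (∃ v : HeightOneSpectrum (𝓞 S.K), (S.m : 𝓞 S.K) ∉ v.asIdeal ∧
        (∀ w, S.underK w = v → Ideal.absNorm w.asIdeal = Ideal.absNorm v.asIdeal) ∧
        ∀ x ∈ A, Odd (x.2.countOver v)) →
      (∃ C : ℝ, ∀ y z, ‖kerSum (A.kerF D σ) y z‖ ≤ C) →
      (∃ C : ℝ, ∀ y z, ‖kerSum (A.kerK D σ w₁) y z‖ ≤ C) →
      ∫ y in 𝔉F, kerSum (A.kerF D σ) y (galY σ y) ∂(yVol (D.levelIdeal S.F)) =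
        c * ∫ y in 𝔉K, kerSum (A.kerK D σ w₁) y y ∂(yVol (D.levelIdeal S.K)) :=
  trace_identity_of_match S D σ hσ w₁ hw₁ (D.localOps hσ) (D.fixedMatch hσ) hF hFfin hK hKfin

end FermatAgent.LTG

end
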